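/-
S36 / [THETA] (helper31): an element of `F_N` whose associated function is holomorphic on `ℍ`
(of moderate growth at the cusps) is integral over `Kb[j]`.
-/
import Fermat.Agent.RED.QEP0

set_option autoImplicit false
set_option linter.unusedSectionVars false

open ModularCurve Polynomial
open Fermat.Agent.S24

noncomputable section

namespace Fermat.Agent.S36

section SpanDescent

variable {K C : Type*} [Field K] [Field C] (ι : K →+* C)

theorem coeffMap_smul' (c : K) (x : LaurentSeries K) :
    coeffMap ι (c • x) = ι c • coeffMap ι x := by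
  ext n
  simp [coeffMap_coeff]

/-- Descent of span membership along an extension of the coefficient field. -/
theorem mem_span_of_coeffMap_mem_span {I : Type*} (w : I → LaurentSeries K) (v : LaurentSeries K)
    (h : coeffMap ι v ∈ Submodule.span C (Set.range fun i => coeffMap ι (w i))) :
    v ∈ Submodule.span K (Set.range w) := by
  classical
  by_contra hv
  obtain ⟨b, -, hbspan, hbli⟩ := exists_linearIndependent K (Set.range w)
  rw [← hbspan] at hv
  have h1 : LinearIndependent K (fun o => Option.casesOn' o v ((↑) : b → LaurentSeries K)) := by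
    rw [linearIndependent_option']
    exact ⟨hbli, by rwa [Subtype.range_coe]⟩
  have h2 := linearIndependent_coeffMap ι _ h1
  have h3 : (fun o : Option b => coeffMap ι (Option.casesOn' o v ((↑) : b → LaurentSeries K)))
      = fun o => Option.casesOn' o (coeffMap ι v) (fun x : b => coeffMap ι (x : LaurentSeries K)) := by
    funext o
    cases o <;> rfl
  rw [h3, linearIndependent_option'] at h2
  apply h2.2
  refine Submodule.span_le.mpr ?_ h
  rintro _ ⟨i, rfl⟩
  have hwi : w i ∈ Submodule.span K b := by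
    rw [hbspan]; exact Submodule.subset_span ⟨i, rfl⟩
  show coeffMap ι (w i) ∈ Submodule.span C (Set.range fun x : b => coeffMap ι (x : LaurentSeries K))
  generalize w i = z at hwi
  induction hwi using Submodule.span_induction with
  | mem x hx => exact Submodule.subset_span ⟨⟨x, hx⟩, rfl⟩
  | zero => rw [map_zero]; exact Submodule.zero_mem _
  | add x y _ _ hx hy => rw [map_add]; exact Submodule.add_mem _ hx hy
  | smul c x _ hx => rw [coeffMap_smul']; exact Submodule.smul_mem _ _ hx

end SpanDescent

section PowSpan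

/-- If `f ^ n` is in the `A`-span of the lower powers then `f` is integral over `A`. -/
theorem isIntegral_of_pow_mem_span {A F : Type*} [CommRing A] [Field F] [Algebra A F] (f : F)
    (n : ℕ) (h : f ^ n ∈ Submodule.span A (Set.range fun i : Fin n => f ^ (i : ℕ))) :
    IsIntegral A f := by
  rcases Nat.eq_zero_or_pos n with rfl | hn
  · -- `1 ∈ span ∅`, impossible
    have : (Set.range fun i : Fin 0 => f ^ (i : ℕ)) = ∅ := Set.range_eq_empty _
    rw [this, Submodule.span_empty, Submodule.mem_bot, pow_zero] at h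
    exact absurd h one_ne_zero
  refine isIntegral_of_smul_mem_submodule (M := F)
    (Submodule.span A (Set.range fun i : Fin n => f ^ (i : ℕ))) ?_ ?_ f ?_
  · intro hbot
    have h1 : (1 : F) ∈ Submodule.span A (Set.range fun i : Fin n => f ^ (i : ℕ)) :=
      Submodule.subset_span ⟨⟨0, hn⟩, by simp⟩
    rw [hbot, Submodule.mem_bot] at h1
    exact one_ne_zero h1
  · exact Submodule.fg_span (Set.finite_range _)
  · intro m hm
    induction hm using Submodule.span_induction with
    | mem x hx =>
      obtain ⟨i, rfl⟩ := hx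
      rw [smul_eq_mul, ← pow_succ']
      by_cases hi : (i : ℕ) + 1 < n
      · exact Submodule.subset_span ⟨⟨(i : ℕ) + 1, hi⟩, rfl⟩
      · have : (i : ℕ) + 1 = n := by have := i.2; omega
        rw [this]; exact h
    | zero => rw [smul_zero]; exact Submodule.zero_mem _
    | add x y _ _ hx hy => rw [smul_add]; exact Submodule.add_mem _ hx hy
    | smul c x _ hx => rw [smul_comm]; exact Submodule.smul_mem _ _ hx

/-- Abstract last step: a `K`-linear relation gives integrality over `K[j]`. -/
theorem isIntegral_of_mem_span_mul {K : Type*} [Field K]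
    (F : IntermediateField K (LaurentSeries K)) (j f : F) (n : ℕ)
    (h2 : (f : LaurentSeries K) ^ n ∈ Submodule.span K (Set.range fun x : ℕ × Fin n =>
      (j : LaurentSeries K) ^ x.1 * (f : LaurentSeries K) ^ (x.2 : ℕ))) :
    IsIntegral (Algebra.adjoin K {j}) f := by
  apply isIntegral_of_pow_mem_span f n
  set A := Algebra.adjoin K {j} with hA
  have h3 : ∀ z ∈ Submodule.span K (Set.range fun x : ℕ × Fin n =>
      (j : LaurentSeries K) ^ x.1 * (f : LaurentSeries K) ^ (x.2 : ℕ)), ∃ y : F,
      y ∈ Submodule.span A (Set.range fun i : Fin n => f ^ (i : ℕ)) ∧ (y : LaurentSeries K) = z := by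
    intro z hz
    induction hz using Submodule.span_induction with
    | mem x hx =>
      obtain ⟨⟨a, i⟩, rfl⟩ := hx
      refine ⟨j ^ a * f ^ (i : ℕ), ?_, by simp⟩
      have hj : j ^ a ∈ A := pow_mem (Algebra.subset_adjoin (Set.mem_singleton j)) a
      have : j ^ a * f ^ (i : ℕ) = (⟨j ^ a, hj⟩ : A) • f ^ (i : ℕ) := by
        rw [Subalgebra.smul_def, smul_eq_mul]
      rw [this]
      exact Submodule.smul_mem _ _ (Submodule.subset_span ⟨i, rfl⟩)
    | zero => exact ⟨0, Submodule.zero_mem _, rfl⟩
    | add x y _ _ hx hy =>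
      obtain ⟨x', hx', rfl⟩ := hx
      obtain ⟨y', hy', rfl⟩ := hy
      exact ⟨x' + y', Submodule.add_mem _ hx' hy', rfl⟩
    | smul c x _ hx =>
      obtain ⟨x', hx', rfl⟩ := hx
      refine ⟨algebraMap K A c • x', Submodule.smul_mem _ _ hx', ?_⟩
      rw [← algebraMap_mul_eq_smul, Subalgebra.smul_def, smul_eq_mul]
      rfl
  obtain ⟨z, hz, hzf⟩ := h3 _ h2
  have : z = f ^ n := Subtype.ext (by rw [hzf]; simp)
  rw [← this]
  exact hz

end PowSpan

section Main

open CongruenceSubgroup RED
open scoped MatrixGroups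

variable (N : ℕ) [NeZero N]

theorem cpHol_monic (h : Hol) : (CPAlt.cpHol N h).Monic :=
  monic_prod_of_monic _ _ fun _ _ => monic_X_sub_C _

theorem cpHol_eval_self {h : Hol} (hh : h ∈ CPAlt.RN N) : (CPAlt.cpHol N h).eval h = 0 := by
  unfold CPAlt.cpHol
  rw [eval_prod]
  refine Finset.prod_eq_zero (Finset.mem_univ (((1 : SL(2, ℤ)) : XN N))) ?_
  obtain ⟨γ, hγ⟩ := QuotientGroup.mk_out_eq_mul (Gamma0 N) (1 : SL(2, ℤ))
  rw [eval_sub, eval_X, eval_C, hγ, one_mul, hh.1 γ γ.2, sub_self]

/-- The relation over `ℂ[j]` between the `q`-expansions. -/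
theorem exists_relation (f : FN N) (h : Hol) (hh : h ∈ CPAlt.RN N)
    (hf : ThetaMer N f = algebraMap Hol Mer h) :
    ∃ (n : ℕ) (p : Fin n → ℂ[X]),
      coeffMap iotaK.toRingHom (f : LaurentSeries Kb) ^ n
        + ∑ i : Fin n, aeval (coeffMap iotaK.toRingHom (jF N : LaurentSeries Kb)) (p i)
          * coeffMap iotaK.toRingHom (f : LaurentSeries Kb) ^ (i : ℕ) = 0 := by
  classical
  set P := CPAlt.cpHol N h with hP
  set n := P.natDegree with hn
  have hc : ∀ i : ℕ, ∃ p : ℂ[X], P.coeff i = aeval (jdHol (1 : ℕ) : Hol) p :=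
    fun i => CPAlt.exists_coeff_cpHol_eq hh i
  choose p hp using hc
  let p' : Fin (n + 1) → ℂ[X] := fun i => if (i : ℕ) = n then 1 else p i
  have hp' : ∀ i : Fin (n + 1), P.coeff i = aeval (jdHol (1 : ℕ) : Hol) (p' i) := by
    intro i
    by_cases hi : (i : ℕ) = n
    · simp only [p', hi, if_true, map_one]
      exact (cpHol_monic N h).coeff_natDegree
    · simp only [p', hi, if_false]
      exact hp i
  have hrel : ∑ i : Fin (n + 1), P.coeff i * h ^ (i : ℕ) = 0 := by
    have := cpHol_eval_self N hh
    rw [← hP, eval_eq_sum_range, ← Fin.sum_univ_eq_sum_range (fun i => P.coeff i * h ^ i)] at this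
    exact this
  set J := Theta iotaK.toRingHom (genInRange N) (jF N) with hJ
  set Uf := Theta iotaK.toRingHom (genInRange N) f with hUf
  have hTJ : toMerAlg J = algebraMap Hol Mer (jdHol 1) := ThetaMer_jF N
  have hTU : toMerAlg Uf = algebraMap Hol Mer h := hf
  have h1 : ∑ x : Fin (n + 1), aeval (toMerAlg J) (p' x) * toMerAlg (Uf ^ (x : ℕ)) = 0 := by
    rw [← map_zero (algebraMap Hol Mer), ← hrel, map_sum]
    refine Finset.sum_congr rfl fun x _ => ?_
    rw [hTJ, map_pow, hTU, aeval_algebraMap_apply, ← hp', map_mul, map_pow]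
  have h2 := relation_transfer toMerAlg toLaurentAlg J (fun x : Fin (n + 1) => Uf ^ (x : ℕ)) p' h1
  have hLJ : toLaurentAlg J = coeffMap iotaK.toRingHom (jF N : LaurentSeries Kb) :=
    toLaurent_Theta _ _ _
  have hLU : toLaurentAlg Uf = coeffMap iotaK.toRingHom (f : LaurentSeries Kb) :=
    toLaurent_Theta _ _ _
  refine ⟨n, fun i => p' i.castSucc, ?_⟩
  rw [Fin.sum_univ_castSucc] at h2
  simp only [map_pow, hLJ, hLU, Fin.val_last, Fin.val_castSucc] at h2
  have hlast : p' (Fin.last n) = 1 := by simp [p']
  rw [hlast, map_one, one_mul, add_comm] at h2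
  exact h2

/-- **Integrality over `Kb[j]`** of the elements of `F_N` which are holomorphic on `ℍ`. -/
theorem isIntegral_of_ThetaMer_mem_RN (f : FN N) (h : Hol) (hh : h ∈ CPAlt.RN N)
    (hf : ThetaMer N f = algebraMap Hol Mer h) : IsIntegral (Algebra.adjoin Kb {jF N}) f := by
  classical
  obtain ⟨n, p, hrel⟩ := exists_relation N f h hh hf
  set ι := iotaK.toRingHom with hι
  let w : ℕ × Fin n → LaurentSeries Kb :=
    fun x => (jF N : LaurentSeries Kb) ^ x.1 * (f : LaurentSeries Kb) ^ (x.2 : ℕ)
  have h1 : coeffMap ι ((f : LaurentSeries Kb) ^ n)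
      ∈ Submodule.span ℂ (Set.range fun x => coeffMap ι (w x)) := by
    have : coeffMap ι ((f : LaurentSeries Kb) ^ n)
        = -∑ i : Fin n, aeval (coeffMap ι (jF N : LaurentSeries Kb)) (p i)
          * coeffMap ι (f : LaurentSeries Kb) ^ (i : ℕ) := by
      rw [map_pow]; exact eq_neg_of_add_eq_zero_left hrel
    rw [this]
    refine Submodule.neg_mem _ (Submodule.sum_mem _ fun i _ => ?_)
    rw [aeval_eq_sum_range, Finset.sum_mul]
    refine Submodule.sum_mem _ fun a _ => ?_
    rw [Algebra.smul_def, mul_assoc, algebraMap_mul_eq_smul]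
    refine Submodule.smul_mem _ _ (Submodule.subset_span ⟨(a, i), ?_⟩)
    simp only [w, map_mul, map_pow]
  have h2 := mem_span_of_coeffMap_mem_span ι w _ h1
  exact isIntegral_of_mem_span_mul (modularFunctionFieldBar N) (jF N) f n h2

end Main

end Fermat.Agent.S36
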