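/-
S36 / [THETA] (helper31): `[INT-DESC]` descent of integrality over `K[j]` along an extension of the
coefficient field of Laurent series; change of the parameter; clearing denominators.
-/
import Fermat.Agent.S36.Theta.Integral
import Fermat.Agent.S36.Mod.F0Defs

set_option autoImplicit false
set_option linter.unusedSectionVars false

open ModularCurve Polynomial
open Fermat.Agent.S24

noncomputable section

namespace Fermat.Agent.S36

/-- an integral relation over `K[J]` as a `K`-linear relation. -/
theorem exists_pow_mem_span_of_isIntegral {K F : Type*} [Field K] [Field F] [Algebra K F] (J Y : F)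
    (h : IsIntegral (Algebra.adjoin K {J}) Y) :
    ∃ n : ℕ, Y ^ n ∈ Submodule.span K (Set.range fun x : ℕ × Fin n => J ^ x.1 * Y ^ (x.2 : ℕ)) := by
  classical
  obtain ⟨p, hp, hev⟩ := h
  refine ⟨p.natDegree, ?_⟩
  set n := p.natDegree with hn
  set W := Submodule.span K (Set.range fun x : ℕ × Fin n => J ^ x.1 * Y ^ (x.2 : ℕ)) with hW
  -- coefficients times powers
  have hc : ∀ c ∈ Algebra.adjoin K {J}, ∀ i : Fin n, c * Y ^ (i : ℕ) ∈ W := by
    intro c hc i
    rw [Algebra.adjoin_singleton_eq_range_aeval] at hc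
    obtain ⟨g, rfl⟩ := hc
    show aeval J g * Y ^ (i : ℕ) ∈ W
    rw [aeval_eq_sum_range, Finset.sum_mul]
    refine Submodule.sum_mem _ fun a _ => ?_
    rw [smul_mul_assoc]
    exact Submodule.smul_mem _ _ (Submodule.subset_span ⟨(a, i), rfl⟩)
  rw [eval₂_eq_sum_range, Finset.sum_range_succ, ← hn, hp.coeff_natDegree, map_one, one_mul] at hev
  have h1 : Y ^ n = - ∑ i ∈ Finset.range n,
      algebraMap (Algebra.adjoin K {J}) F (p.coeff i) * Y ^ i := by
    linear_combination hev
  rw [h1]
  refine Submodule.neg_mem _ (Submodule.sum_mem _ fun i hi => ?_)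
  exact hc _ (p.coeff i).2 ⟨i, Finset.mem_range.1 hi⟩

/-- **[INT-DESC]**, generic form. -/
theorem isIntegral_of_coeffMap {K C : Type*} [Field K] [Field C] (ι : K →+* C)
    (F : IntermediateField K (LaurentSeries K)) (F' : IntermediateField C (LaurentSeries C))
    (j y : F) (j' y' : F') (hj : (j' : LaurentSeries C) = coeffMap ι (j : LaurentSeries K))
    (hy : (y' : LaurentSeries C) = coeffMap ι (y : LaurentSeries K))
    (h : IsIntegral (Algebra.adjoin C {j'}) y') : IsIntegral (Algebra.adjoin K {j}) y := by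
  obtain ⟨n, hn⟩ := exists_pow_mem_span_of_isIntegral j' y' h
  apply isIntegral_of_mem_span_mul F j y n
  apply mem_span_of_coeffMap_mem_span ι
  have h3 : ∀ z ∈ Submodule.span C (Set.range fun x : ℕ × Fin n => j' ^ x.1 * y' ^ (x.2 : ℕ)),
      (z : LaurentSeries C) ∈ Submodule.span C (Set.range fun x : ℕ × Fin n =>
        coeffMap ι ((j : LaurentSeries K) ^ x.1 * (y : LaurentSeries K) ^ (x.2 : ℕ))) := by
    intro z hz
    induction hz using Submodule.span_induction with
    | mem x hx =>
      obtain ⟨x, rfl⟩ := hx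
      refine Submodule.subset_span ⟨x, ?_⟩
      show coeffMap ι ((j : LaurentSeries K) ^ x.1 * (y : LaurentSeries K) ^ (x.2 : ℕ))
        = (j' : LaurentSeries C) ^ x.1 * (y' : LaurentSeries C) ^ (x.2 : ℕ)
      rw [map_mul, map_pow, map_pow, ← hy, ← hj]
    | zero => exact Submodule.zero_mem _
    | add x y _ _ hx hy => exact Submodule.add_mem _ hx hy
    | smul c x _ hx =>
      have : ((c • x : F') : LaurentSeries C) = c • (x : LaurentSeries C) := by
        rw [← algebraMap_mul_eq_smul, Algebra.smul_def]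
        rfl
      rw [this]
      exact Submodule.smul_mem _ _ hx
  have h4 := h3 _ hn
  have e1 : ((y' ^ n : F') : LaurentSeries C) = coeffMap ι ((y : LaurentSeries K) ^ n) := by
    rw [map_pow, ← hy]; rfl
  rw [e1] at h4
  exact h4

/-- **[INT-DESC]** for `F0 A N → FN N`. -/
theorem isIntegral_of_embF0 (A : ValuationSubring Kb) (N : ℕ) [NeZero N] (j y : F0 A N)
    (h : IsIntegral (Algebra.adjoin Kb {embF0 A N j}) (embF0 A N y)) :
    IsIntegral (Algebra.adjoin (KK A) {j}) y :=
  isIntegral_of_coeffMap (algebraMap (KK A) Kb) _ _ j y _ _ rfl rfl h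

end Fermat.Agent.S36
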