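/-
S36 / [THETA] (helper31): abstract tools for membership in `intCl R t`:
change of the parameter, clearing denominators.  (The criterion
"in all `O i` + integral on the generic fibre ⟹ in `intCl R t`" is
`GaussSys.mem_intCl_of_isIntegral` in `Abs/ValCrit.lean`.)
-/
import Fermat.Agent.S36.Abs.Krull
import Fermat.Agent.S36.Abs.GaussSys

set_option autoImplicit false
set_option linter.unusedSectionVars false

open Polynomial

namespace Fermat.Agent.S36

/-- transitivity of integrality for the rings `K[t]`, `K[j]` (`j` integral over `K[t]`). -/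
theorem isIntegral_adjoin_trans {K F : Type*} [CommRing K] [Field F] [Algebra K F] {j t y : F}
    (hj : IsIntegral (Algebra.adjoin K {t}) j) (hy : IsIntegral (Algebra.adjoin K {j}) y) :
    IsIntegral (Algebra.adjoin K {t}) y := by
  set A' := integralClosure (Algebra.adjoin K {t}) F with hA'
  have hle : Algebra.adjoin K {j} ≤ A'.restrictScalars K := by
    apply Algebra.adjoin_le
    rintro _ rfl
    exact hj
  let φ : Algebra.adjoin K {j} →+* A' := (Subalgebra.inclusion hle).toRingHom
  have h1 : IsIntegral A' y :=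
    IsIntegral.map_of_comp_eq φ (RingHom.id F) (by ext x; rfl) hy
  exact isIntegral_trans y h1

/-- `j` is integral over `K[j ^ n - j]`. -/
theorem isIntegral_adjoin_pow_sub {K F : Type*} [CommRing K] [Field F] [Algebra K F] (j : F) {n : ℕ}
    (hn : 1 < n) : IsIntegral (Algebra.adjoin K {j ^ n - j}) j := by
  set B := Algebra.adjoin K {j ^ n - j} with hB
  let τ : B := ⟨j ^ n - j, Algebra.subset_adjoin (Set.mem_singleton _)⟩
  refine ⟨X ^ n - (X + C τ), ?_, ?_⟩
  · apply monic_X_pow_sub
    rw [degree_X_add_C]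
    exact_mod_cast hn
  · rw [eval₂_sub, eval₂_add, eval₂_pow, eval₂_X, eval₂_C]
    show j ^ n - (j + (j ^ n - j)) = 0
    ring

section Clear

variable {R : Type*} [CommRing R] [IsDomain R] [IsDiscreteValuationRing R]
  {K : Type*} [Field K] [Algebra R K] [IsFractionRing R K]
  {F : Type*} [Field F] [Algebra R F] [Algebra K F] [IsScalarTower R K F]
  {π : R} {t : F}

/-- clearing denominators, with an arbitrary denominator. -/
theorem exists_mul_mem_intCl {y : F} (hy : IsIntegral (Algebra.adjoin K {t}) y) :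
    ∃ b : R, b ≠ 0 ∧ algebraMap R F b * y ∈ intCl R t := by
  classical
  obtain ⟨p, hp, hev⟩ := hy
  set P := p.map (algebraMap (Algebra.adjoin K {t}) F) with hP
  have hPm : P.Monic := hp.map _
  have hPy : aeval y P = 0 := by
    rw [hP, aeval_def, eval₂_map]
    exact hev
  have hc : ∀ j : ℕ, ∃ b : R, b ≠ 0 ∧ algebraMap R F b * P.coeff j ∈ Algebra.adjoin R {t} := by
    intro j
    have h1 : P.coeff j ∈ Algebra.adjoin K {t} := by
      rw [hP, coeff_map]; exact (p.coeff j).2
    rw [Algebra.adjoin_singleton_eq_range_aeval] at h1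
    obtain ⟨g, hg⟩ := h1
    obtain ⟨b, g', hb, hg'⟩ := GaussAux.exists_int (R := R) (t := t) g
    refine ⟨b, hb, ?_⟩
    have hg2 : aeval t g = P.coeff j := hg
    rw [← hg2, ← hg']
    exact aeval_mem_adjoin_singleton R t
  choose b hb0 hb using hc
  set d := P.natDegree with hd
  set β : R := ∏ j ∈ Finset.range d, b j with hβ
  refine ⟨β, Finset.prod_ne_zero_iff.2 fun j _ => hb0 j, ?_⟩
  rw [mem_intCl]
  apply GaussAux.isIntegral_scale (Algebra.adjoin R {t}) hPm hPy
  intro j hj
  have h1 : β = b j * ∏ i ∈ (Finset.range d).erase j, b i :=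
    (Finset.mul_prod_erase _ _ (Finset.mem_range.2 hj)).symm
  obtain ⟨m, hm⟩ : ∃ m, d - j = m + 1 := ⟨d - j - 1, by omega⟩
  rw [hm, pow_succ]
  have h2 : P.coeff j * (algebraMap R F β ^ m * algebraMap R F β) =
      (algebraMap R F (b j) * P.coeff j) *
        algebraMap R F (β ^ m * ∏ i ∈ (Finset.range d).erase j, b i) := by
    rw [map_mul, map_pow]
    conv_lhs => rw [h1, map_mul]
    conv_rhs => rw [h1, map_mul]
    ring
  rw [h2]
  exact mul_mem (hb j) (Subalgebra.algebraMap_mem _ _)

/-- clearing denominators, with a power of the uniformizer. -/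
theorem exists_pow_mul_mem_intCl (hπ : Irreducible π) {y : F}
    (hy : IsIntegral (Algebra.adjoin K {t}) y) :
    ∃ n : ℕ, algebraMap R F π ^ n * y ∈ intCl R t := by
  obtain ⟨b, hb0, hb⟩ := exists_mul_mem_intCl (R := R) hy
  obtain ⟨n, hn⟩ := IsDiscreteValuationRing.associated_pow_irreducible hb0 hπ
  obtain ⟨u, hu⟩ := hn
  refine ⟨n, ?_⟩
  have h1 : algebraMap R F π ^ n * y = algebraMap R F (u : R) * (algebraMap R F b * y) := by
    rw [← map_pow, ← hu, map_mul]; ring
  rw [h1]
  refine (intCl R t).mul_mem ?_ hb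
  rw [mem_intCl]
  exact isIntegral_algebraMap (R := Algebra.adjoin R {t}) (x := algebraMap R _ (u : R))

end Clear

end Fermat.Agent.S36
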