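/-
S36 / [THETA] (helper31): functions on `ℍ` of the form `φ(q)`, `φ` holomorphic on the unit disc:
they are in `HolPer 1` and their `q`-expansion is the Taylor series of `φ`.
-/
import Fermat.Agent.S24.QExp
import Fermat.Agent.S24.HolPer

set_option autoImplicit false

open Complex Function Filter ModularForm
open UpperHalfPlane hiding I
open scoped Real MatrixGroups Manifold Topology
open Fermat.Agent.S24

noncomputable section

namespace Fermat.Agent.S36

local notation "𝕢" => Periodic.qParam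

/-- The function `τ ↦ φ(e^{2πiτ})`. -/
def ofDisc (φ : ℂ → ℂ) (τ : ℍ) : ℂ := φ (𝕢 1 (τ : ℂ))

theorem qParam_mem_ball {z : ℂ} (hz : 0 < z.im) : 𝕢 1 z ∈ Metric.ball (0 : ℂ) 1 := by
  simpa using norm_qParam_lt_one 1 ⟨z, hz⟩

theorem mdiff_ofDisc {φ : ℂ → ℂ} (hφ : DifferentiableOn ℂ φ (Metric.ball 0 1)) :
    MDiff (ofDisc φ) := by
  rw [UpperHalfPlane.mdifferentiable_iff]
  have h1 : DifferentiableOn ℂ (fun z : ℂ => φ (𝕢 1 z)) upperHalfPlaneSet := by
    refine DifferentiableOn.comp (t := Metric.ball 0 1) hφ ?_ (fun z hz => qParam_mem_ball hz)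
    exact (Periodic.differentiable_qParam (h := 1)).differentiableOn
  refine h1.congr fun z hz => ?_
  simp [ofDisc, ofComplex_apply_of_im_pos hz]

theorem qParam_add_one (w : ℂ) : 𝕢 1 (w + 1) = 𝕢 1 w := by
  simp only [Periodic.qParam]
  have : 2 * (π : ℂ) * I * (w + 1) / ((1 : ℝ) : ℂ) = 2 * π * I * w / ((1 : ℝ) : ℂ) + 2 * π * I := by
    push_cast; ring
  rw [this, Complex.exp_add, Complex.exp_two_pi_mul_I, mul_one]

theorem periodic_ofDisc (φ : ℂ → ℂ) : Periodic (ofDisc φ ∘ ofComplex) 1 := by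
  intro w
  by_cases hw : 0 < im w
  · have hw' : 0 < im (w + 1) := by simpa using hw
    simp only [comp_apply, ofComplex_apply_of_im_pos hw', ofComplex_apply_of_im_pos hw, ofDisc,
      UpperHalfPlane.coe_mk]
    rw [qParam_add_one]
  · have hw' : im (w + 1) ≤ 0 := by simpa using not_lt.mp hw
    simp [ofComplex_apply_of_im_nonpos hw', ofComplex_apply_of_im_nonpos (not_lt.mp hw)]

theorem tendsto_ofDisc {φ : ℂ → ℂ} (hφ : ContinuousAt φ 0) :
    Tendsto (ofDisc φ) atImInfty (𝓝 (φ 0)) :=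
  hφ.tendsto.comp (UpperHalfPlane.qParam_tendsto_atImInfty zero_lt_one)

theorem isBounded_ofDisc {φ : ℂ → ℂ} (hφ : ContinuousAt φ 0) : IsBoundedAtImInfty (ofDisc φ) :=
  (tendsto_ofDisc hφ).isBigO_one ℝ

theorem continuousAt_of_diffOn {φ : ℂ → ℂ} (hφ : DifferentiableOn ℂ φ (Metric.ball 0 1)) :
    ContinuousAt φ 0 :=
  (hφ.differentiableAt (Metric.ball_mem_nhds 0 one_pos)).continuousAt

theorem ofDisc_mem_HolPer {φ : ℂ → ℂ} (hφ : DifferentiableOn ℂ φ (Metric.ball 0 1)) :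
    ofDisc φ ∈ HolPer 1 :=
  ⟨mdiff_ofDisc hφ, by simpa using periodic_ofDisc φ, isBounded_ofDisc (continuousAt_of_diffOn hφ)⟩

theorem cuspFunction_ofDisc_of_ne {φ : ℂ → ℂ} {q : ℂ} (hq : q ∈ Metric.ball (0 : ℂ) 1)
    (hq0 : q ≠ 0) : cuspFunction 1 (ofDisc φ) q = φ q := by
  have him := Periodic.im_invQParam_pos_of_norm_lt_one one_pos
      (by simpa [dist_zero_right] using hq) hq0
  simp [cuspFunction, Periodic.cuspFunction_eq_of_nonzero 1 _ hq0,
      ofComplex_apply_of_im_pos him, ofDisc, Periodic.qParam_right_inv one_ne_zero hq0]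

theorem cuspFunction_ofDisc_eqOn {φ : ℂ → ℂ} (hφ : ContinuousAt φ 0) :
    Set.EqOn (cuspFunction 1 (ofDisc φ)) φ (Metric.ball 0 1) := by
  intro q hq
  by_cases hq0 : q = 0
  · subst hq0
    rw [cuspFunction, Periodic.cuspFunction_zero_eq_limUnder_nhds_ne]
    apply Tendsto.limUnder_eq
    refine (hφ.tendsto.mono_left nhdsWithin_le_nhds).congr' ?_
    filter_upwards [self_mem_nhdsWithin, nhdsWithin_le_nhds (Metric.ball_mem_nhds (0 : ℂ) one_pos)]
      with q hq0 hq
    exact (cuspFunction_ofDisc_of_ne hq hq0).symm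
  · exact cuspFunction_ofDisc_of_ne hq hq0

theorem qExpansion_ofDisc {φ : ℂ → ℂ} (hφ : ContinuousAt φ 0) :
    qExpansion 1 (ofDisc φ) = tay φ := by
  rw [qExpansion_eq_tay]
  apply tay_congr
  filter_upwards [Metric.ball_mem_nhds (0 : ℂ) one_pos] with q hq
  exact cuspFunction_ofDisc_eqOn hφ hq

end Fermat.Agent.S36
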