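/-
S36 / [THETA] (helper31): the abstract weight one datum (a nowhere vanishing weight one form `G`
on `Γ₀(M₀)` with quadratic character, integral `q`-expansion with constant term `1`, and a power
which is a `Δ`-quotient), and Taylor series tools.
-/
import Fermat.Agent.S36.Theta.Disc
import Fermat.Agent.S36.EtaAut
import Fermat.Agent.S28.Analytic.Unit

set_option autoImplicit false

open Complex Function Filter ModularForm
open UpperHalfPlane hiding I
open scoped Real MatrixGroups Manifold Topology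
open Fermat.Agent.S24

noncomputable section

namespace Fermat.Agent.S36

local notation "𝕢" => Periodic.qParam
local notation "Δ" => ModularForm.discriminant

/-! ### Taylor series of `φ(q^d)` -/

theorem pow_mem_ball {q : ℂ} (hq : q ∈ Metric.ball (0 : ℂ) 1) {d : ℕ} (hd : d ≠ 0) :
    q ^ d ∈ Metric.ball (0 : ℂ) 1 := by
  simp only [Metric.mem_ball, dist_zero_right, norm_pow] at hq ⊢
  exact pow_lt_one₀ (norm_nonneg _) hq hd

theorem diffOn_comp_pow {φ : ℂ → ℂ} (hφ : DifferentiableOn ℂ φ (Metric.ball 0 1)) {d : ℕ}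
    (hd : d ≠ 0) : DifferentiableOn ℂ (fun q => φ (q ^ d)) (Metric.ball 0 1) :=
  DifferentiableOn.comp (t := Metric.ball 0 1) hφ (by fun_prop) (fun _ hq => pow_mem_ball hq hd)

theorem ofDisc_comp_scal (φ : ℂ → ℂ) (d : ℕ) [NeZero d] :
    ofDisc φ ∘ scal d = ofDisc (fun q => φ (q ^ d)) := by
  funext τ
  simp only [comp_apply, ofDisc, coe_scal, qParam_mul_nat]

theorem tay_comp_pow {φ : ℂ → ℂ} (hφ : DifferentiableOn ℂ φ (Metric.ball 0 1)) (d : ℕ)
    (hd : d ≠ 0) : tay (fun q => φ (q ^ d)) = (tay φ).expand d hd := by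
  haveI : NeZero d := ⟨hd⟩
  have h := ofDisc_mem_HolPer hφ
  ext n
  rw [← qExpansion_ofDisc (continuousAt_of_diffOn (diffOn_comp_pow hφ hd)), ← ofDisc_comp_scal,
    qExpansion_scale_coeff (Nat.pos_of_ne_zero hd) (scal d) (coe_scal d) (by simpa using h.2.1)
      h.1 h.2.2, PowerSeries.coeff_expand, qExpansion_ofDisc (continuousAt_of_diffOn hφ)]

/-! ### Euler's product on the disc -/

/-- Euler's product `∏ (1 - q^n)`. -/
def eulerP (q : ℂ) : ℂ := ∏' n : ℕ, (1 - q ^ (n + 1))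

theorem diffOn_eulerP : DifferentiableOn ℂ eulerP (Metric.ball 0 1) :=
  differentiableOn_tprod_one_sub_pow

theorem eulerP_ne_zero {q : ℂ} (hq : q ∈ Metric.ball (0 : ℂ) 1) : eulerP q ≠ 0 := by
  have hq' : ‖q‖ < 1 := by simpa using hq
  unfold eulerP
  simp_rw [sub_eq_add_neg]
  refine tprod_one_add_ne_zero_of_summable (f := fun n => -q ^ (n + 1)) ?_ ?_
  · intro i h
    have h1 : q ^ (i + 1) = 1 := by linear_combination -h
    have h2 : ‖q‖ ^ (i + 1) = 1 := by rw [← norm_pow, h1, norm_one]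
    have h3 : ‖q‖ ^ (i + 1) < 1 := pow_lt_one₀ (norm_nonneg _) hq' (Nat.succ_ne_zero i)
    linarith
  · simpa using (summable_nat_add_iff 1).mpr (summable_geometric_of_lt_one (norm_nonneg _) hq')

theorem tay_eulerP : tay eulerP = ModularCurve.etaProd.map (Int.castRingHom ℂ) :=
  tay_tprod_one_sub_pow

theorem eta_eq_eulerP (z : ℂ) : η z = 𝕢 24 z * eulerP (𝕢 1 z) := rfl

/-- The formal `∏ (1 - q^{dn})`. -/
def eS (d : ℕ) : PowerSeries ℤ :=
  if hd : d ≠ 0 then ModularCurve.etaProd.expand d hd else 1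

theorem constantCoeff_eS (d : ℕ) : PowerSeries.constantCoeff (eS d) = 1 := by
  unfold eS
  split_ifs with h
  · rw [PowerSeries.constantCoeff_expand, ModularCurve.constantCoeff_etaProd]
  · simp

theorem tay_eulerP_pow (d : ℕ) (hd : d ≠ 0) :
    tay (fun q => eulerP (q ^ d)) = (eS d).map (Int.castRingHom ℂ) := by
  rw [tay_comp_pow diffOn_eulerP d hd, tay_eulerP, eS, dif_pos hd, PowerSeries.map_expand]

theorem analyticAt_of_diffOn {φ : ℂ → ℂ} (hφ : DifferentiableOn ℂ φ (Metric.ball 0 1)) :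
    AnalyticAt ℂ φ 0 := hφ.analyticAt (Metric.ball_mem_nhds 0 one_pos)

/-! ### The datum -/

/-- A nowhere vanishing weight one form on `Γ₀(M₀)` with quadratic character. -/
structure Wt1 (M₀ : ℕ) where
  /-- the form as a function of `q` -/
  φ : ℂ → ℂ
  diff : DifferentiableOn ℂ φ (Metric.ball 0 1)
  ne_zero : ∀ q ∈ Metric.ball (0 : ℂ) 1, φ q ≠ 0
  /-- the character -/
  χ : ℤ → ℤ
  chi_sq : ∀ d, χ d * χ d = 1
  chi_mod : ∀ d e : ℤ, (M₀ : ℤ) ∣ d - e → χ d = χ e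
  chi_one : χ 1 = 1
  chi_mul : ∀ d e : ℤ, IsCoprime d (M₀ : ℤ) → IsCoprime e (M₀ : ℤ) → χ (d * e) = χ d * χ e
  /-- the formal `q`-expansion -/
  Gs : PowerSeries ℤ
  const : PowerSeries.constantCoeff Gs = 1
  tay_eq : tay φ = Gs.map (Int.castRingHom ℂ)
  aut : ∀ (a b c d : ℤ), a * d - b * c = 1 → (M₀ : ℤ) ∣ c → ∀ z : ℂ, 0 < z.im →
    φ (𝕢 1 (((a : ℂ) * z + b) / ((c : ℂ) * z + d))) = (χ d : ℂ) * ((c : ℂ) * z + d) * φ (𝕢 1 z)
  /-- a power of the form is a `Δ`-quotient -/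
  k : ℕ
  k_pos : 0 < k
  e : ℕ
  S : Finset ℕ
  S_dvd : ∀ d ∈ S, d ∣ M₀
  r : ℕ → ℤ
  pow_eq : ∀ τ : ℍ, φ (𝕢 1 (τ : ℂ)) ^ k = Δ τ ^ e * ∏ d ∈ S, S28.Unit.W d τ ^ r d

end Fermat.Agent.S36
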