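/-
S36 / [THETA] (helper31): the two instances of the weight one datum: `θ²` on `Γ₀(4)` and
`η(τ)³/η(3τ)` on `Γ₀(9)`.
-/
import Fermat.Agent.S36.Theta.Datum

set_option autoImplicit false

open Complex Function Filter ModularForm
open UpperHalfPlane hiding I
open scoped Real MatrixGroups Manifold Topology
open Fermat.Agent.S24

noncomputable section

namespace Fermat.Agent.S36

local notation "𝕢" => Periodic.qParam
local notation "Δ" => ModularForm.discriminant

theorem qParam24_mul_nat (d : ℕ) (z : ℂ) : 𝕢 24 ((d : ℂ) * z) = 𝕢 24 z ^ d := by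
  simp only [Periodic.qParam, ← Complex.exp_nat_mul]
  congr 1
  ring

theorem eta_nat_mul (d : ℕ) (z : ℂ) : η ((d : ℂ) * z) = 𝕢 24 z ^ d * eulerP (𝕢 1 z ^ d) := by
  rw [eta_eq_eulerP, qParam24_mul_nat, qParam_mul_nat]

theorem eta_eq' (z : ℂ) : η z = 𝕢 24 z * eulerP (𝕢 1 z) := rfl

/-- `θ²` as a function of `q`. -/
def phi4 (q : ℂ) : ℂ := eulerP (q ^ 2) ^ 10 / (eulerP q ^ 4 * eulerP (q ^ 4) ^ 4)

/-- `η³/η(3·)` as a function of `q`. -/
def phi9 (q : ℂ) : ℂ := eulerP q ^ 3 / eulerP (q ^ 3)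

theorem G4_eq_phi4 (z : ℂ) : G4 z = phi4 (𝕢 1 z) := by
  have h2 := eta_nat_mul 2 z
  have h4 := eta_nat_mul 4 z
  push_cast at h2 h4
  unfold G4 phi4
  rw [h2, h4, eta_eq' z]
  have ht : 𝕢 24 z ≠ 0 := Periodic.qParam_ne_zero z
  by_cases h1 : eulerP (𝕢 1 z) = 0
  · simp [h1]
  by_cases h1' : eulerP (𝕢 1 z ^ 4) = 0
  · simp [h1']
  field_simp

theorem G9_eq_phi9 (z : ℂ) : G9 z = phi9 (𝕢 1 z) := by
  have h3 := eta_nat_mul 3 z
  push_cast at h3
  unfold G9 phi9
  rw [h3, eta_eq' z]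
  have ht : 𝕢 24 z ≠ 0 := Periodic.qParam_ne_zero z
  by_cases h1 : eulerP (𝕢 1 z ^ 3) = 0
  · simp [h1]
  field_simp

theorem den4_ne_zero {q : ℂ} (hq : q ∈ Metric.ball (0 : ℂ) 1) :
    eulerP q ^ 4 * eulerP (q ^ 4) ^ 4 ≠ 0 :=
  mul_ne_zero (pow_ne_zero _ (eulerP_ne_zero hq))
    (pow_ne_zero _ (eulerP_ne_zero (pow_mem_ball hq (by norm_num))))

theorem diffOn_phi4 : DifferentiableOn ℂ phi4 (Metric.ball 0 1) := by
  unfold phi4
  refine DifferentiableOn.div ((diffOn_comp_pow diffOn_eulerP (by norm_num)).pow 10)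
    ((diffOn_eulerP.pow 4).mul ((diffOn_comp_pow diffOn_eulerP (by norm_num)).pow 4))
    (fun q hq => den4_ne_zero hq)

theorem diffOn_phi9 : DifferentiableOn ℂ phi9 (Metric.ball 0 1) := by
  unfold phi9
  exact DifferentiableOn.div (diffOn_eulerP.pow 3) (diffOn_comp_pow diffOn_eulerP (by norm_num))
    (fun q hq => eulerP_ne_zero (pow_mem_ball hq (by norm_num)))

theorem phi4_ne_zero {q : ℂ} (hq : q ∈ Metric.ball (0 : ℂ) 1) : phi4 q ≠ 0 :=
  div_ne_zero (pow_ne_zero _ (eulerP_ne_zero (pow_mem_ball hq (by norm_num)))) (den4_ne_zero hq)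

theorem phi9_ne_zero {q : ℂ} (hq : q ∈ Metric.ball (0 : ℂ) 1) : phi9 q ≠ 0 :=
  div_ne_zero (pow_ne_zero _ (eulerP_ne_zero hq)) (eulerP_ne_zero (pow_mem_ball hq (by norm_num)))

/-- The formal `q`-expansion of `θ²`. -/
def G4ser : PowerSeries ℤ := eS 2 ^ 10 * (eS 1 ^ 4 * eS 4 ^ 4).invOfUnit 1

/-- The formal `q`-expansion of `η³/η(3·)`. -/
def G9ser : PowerSeries ℤ := eS 1 ^ 3 * (eS 3).invOfUnit 1

theorem constantCoeff_invOfUnit_one {f : PowerSeries ℤ} (hf : PowerSeries.constantCoeff f = 1) :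
    PowerSeries.constantCoeff (f.invOfUnit 1) = 1 := by
  have h := congrArg (PowerSeries.constantCoeff (R := ℤ))
    (PowerSeries.mul_invOfUnit f 1 (by rw [hf]; rfl))
  rwa [map_mul, hf, one_mul, map_one] at h

theorem constantCoeff_G4ser : PowerSeries.constantCoeff G4ser = 1 := by
  rw [G4ser, map_mul, map_pow, constantCoeff_eS, constantCoeff_invOfUnit_one]
  · simp
  · simp [constantCoeff_eS]

theorem constantCoeff_G9ser : PowerSeries.constantCoeff G9ser = 1 := by
  rw [G9ser, map_mul, map_pow, constantCoeff_eS, constantCoeff_invOfUnit_one (constantCoeff_eS 3)]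
  simp

theorem tay_eulerP_one : tay eulerP = (eS 1).map (Int.castRingHom ℂ) := by
  have := tay_eulerP_pow 1 one_ne_zero
  simpa using this

theorem map_ne_zero_of_const {f : PowerSeries ℤ} (hf : PowerSeries.constantCoeff f = 1) :
    f.map (Int.castRingHom ℂ) ≠ 0 := by
  intro h
  have := congrArg (PowerSeries.constantCoeff (R := ℂ)) h
  rw [← PowerSeries.coeff_zero_eq_constantCoeff_apply, PowerSeries.coeff_map,
    PowerSeries.coeff_zero_eq_constantCoeff_apply, hf] at this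
  simp at this

theorem tay_phi4 : tay phi4 = G4ser.map (Int.castRingHom ℂ) := by
  have a1 := analyticAt_of_diffOn diffOn_eulerP
  have a2 := analyticAt_of_diffOn (diffOn_comp_pow diffOn_eulerP (d := 2) (by norm_num))
  have a4 := analyticAt_of_diffOn (diffOn_comp_pow diffOn_eulerP (d := 4) (by norm_num))
  have key : tay (phi4 * (eulerP ^ 4 * (fun q => eulerP (q ^ 4)) ^ 4))
      = tay ((fun q => eulerP (q ^ 2)) ^ 10) := by
    apply tay_congr
    filter_upwards [Metric.ball_mem_nhds (0 : ℂ) one_pos] with q hq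
    have h1 := eulerP_ne_zero hq
    have h4 := eulerP_ne_zero (pow_mem_ball hq (d := 4) (by norm_num))
    simp only [Pi.mul_apply, Pi.pow_apply, phi4]
    field_simp
  rw [tay_mul (analyticAt_of_diffOn diffOn_phi4) ((a1.pow 4).mul (a4.pow 4)),
    tay_mul (a1.pow 4) (a4.pow 4), tay_pow a1, tay_pow a4, tay_pow a2, tay_eulerP_one,
    tay_eulerP_pow 2 (by norm_num), tay_eulerP_pow 4 (by norm_num)] at key
  have hc : PowerSeries.constantCoeff (eS 1 ^ 4 * eS 4 ^ 4) = 1 := by simp [constantCoeff_eS]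
  have hne := map_ne_zero_of_const hc
  apply mul_right_cancel₀ hne
  rw [map_mul, map_pow, map_pow, key, G4ser, ← map_pow, ← map_pow, ← map_pow, ← map_mul, ← map_mul,
    mul_assoc, mul_comm ((eS 1 ^ 4 * eS 4 ^ 4).invOfUnit 1),
    PowerSeries.mul_invOfUnit _ 1 (by rw [hc]; rfl), mul_one]

theorem tay_phi9 : tay phi9 = G9ser.map (Int.castRingHom ℂ) := by
  have a1 := analyticAt_of_diffOn diffOn_eulerP
  have a3 := analyticAt_of_diffOn (diffOn_comp_pow diffOn_eulerP (d := 3) (by norm_num))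
  have key : tay (phi9 * (fun q => eulerP (q ^ 3))) = tay (eulerP ^ 3) := by
    apply tay_congr
    filter_upwards [Metric.ball_mem_nhds (0 : ℂ) one_pos] with q hq
    have := eulerP_ne_zero (pow_mem_ball hq (d := 3) (by norm_num))
    simp only [Pi.mul_apply, Pi.pow_apply, phi9]
    field_simp
  rw [tay_mul (analyticAt_of_diffOn diffOn_phi9) a3, tay_pow a1, tay_eulerP_one,
    tay_eulerP_pow 3 (by norm_num)] at key
  have hc := constantCoeff_eS 3
  have hne := map_ne_zero_of_const hc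
  apply mul_right_cancel₀ hne
  rw [key, G9ser, ← map_pow, ← map_mul, mul_assoc, mul_comm ((eS 3).invOfUnit 1),
    PowerSeries.mul_invOfUnit _ 1 (by rw [hc]; rfl), mul_one]

theorem discriminant_eq_eta (τ : ℍ) : Δ τ = η (τ : ℂ) ^ 24 := rfl

theorem W_eq_eta (d : ℕ) (hd : d ≠ 0) (τ : ℍ) :
    S28.Unit.W d τ = η ((d : ℂ) * τ) ^ 24 / η (τ : ℂ) ^ 24 := by
  rw [S28.Unit.W, discriminant_eq_eta, discriminant_eq_eta, coe_heckeDiagMatrix_smul hd]

theorem chi4_of_dvd_sub {d e : ℤ} (h : (4 : ℤ) ∣ d - e) : chi4 d = chi4 e :=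
  chi4_eq_of_emod (by omega)

theorem chi3_of_dvd_sub {d e : ℤ} (h : (3 : ℤ) ∣ d - e) : chi3 d = chi3 e :=
  chi3_eq_of_emod (by omega)

theorem odd_of_isCoprime_four {d : ℤ} (h : IsCoprime d 4) : d % 2 = 1 := by
  obtain ⟨u, v, huv⟩ := h
  by_contra hne
  have h2 : d % 2 = 0 := by omega
  obtain ⟨m, hm⟩ : (2 : ℤ) ∣ d := Int.dvd_of_emod_eq_zero h2
  rw [hm] at huv
  have : 2 * (u * m + v * 2) = 1 := by linarith
  omega

theorem not_dvd_of_isCoprime_nine {d : ℤ} (h : IsCoprime d 9) : d % 3 ≠ 0 := by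
  obtain ⟨u, v, huv⟩ := h
  intro h2
  obtain ⟨m, hm⟩ : (3 : ℤ) ∣ d := Int.dvd_of_emod_eq_zero h2
  rw [hm] at huv
  have : 3 * (u * m + v * 3) = 1 := by linarith
  omega

/-- The datum `θ²` on `Γ₀(4)`. -/
def wt1Four : Wt1 4 where
  φ := phi4
  diff := diffOn_phi4
  ne_zero := fun _ hq => phi4_ne_zero hq
  χ := chi4
  chi_sq := chi4_sq
  chi_mod := fun d e h => chi4_of_dvd_sub (by exact_mod_cast h)
  chi_one := by simp [chi4]
  chi_mul := fun d e hd he =>
    chi4_mul (odd_of_isCoprime_four (by exact_mod_cast hd)) (odd_of_isCoprime_four (by exact_mod_cast he))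
  Gs := G4ser
  const := constantCoeff_G4ser
  tay_eq := tay_phi4
  aut := by
    intro a b c d hdet hc z hz
    rw [← G4_eq_phi4, ← G4_eq_phi4]
    exact G4_automorphy a b c d hdet (by exact_mod_cast hc) hz
  k := 12
  k_pos := by norm_num
  e := 1
  S := {2, 4}
  S_dvd := by
    intro d hd
    simp only [Finset.mem_insert, Finset.mem_singleton] at hd
    rcases hd with rfl | rfl <;> norm_num
  r := fun d => if d = 2 then 5 else -2
  pow_eq := by
    intro τ
    rw [← G4_eq_phi4, Finset.prod_pair (by norm_num), W_eq_eta 2 (by norm_num),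
      W_eq_eta 4 (by norm_num), discriminant_eq_eta]
    have n1 := eta_ne_zero' τ.im_pos
    have n2 := eta_ne_zero' (im_two_mul_pos τ.im_pos)
    have n4 := eta_ne_zero' (im_four_mul_pos τ.im_pos)
    simp only [if_true, show ((4 : ℕ) = 2) = False by simp, if_false, G4]
    push_cast
    rw [show (5 : ℤ) = ((5 : ℕ) : ℤ) by norm_num, zpow_natCast, zpow_neg,
      show (2 : ℤ) = ((2 : ℕ) : ℤ) by norm_num, zpow_natCast]
    field_simp

/-- The datum `η³/η(3·)` on `Γ₀(9)`. -/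
def wt1Nine : Wt1 9 where
  φ := phi9
  diff := diffOn_phi9
  ne_zero := fun _ hq => phi9_ne_zero hq
  χ := chi3
  chi_sq := chi3_sq
  chi_mod := fun d e h => chi3_of_dvd_sub (Dvd.dvd.trans (by norm_num) (show (9 : ℤ) ∣ d - e by exact_mod_cast h))
  chi_one := by simp [chi3]
  chi_mul := fun d e hd he =>
    chi3_mul (not_dvd_of_isCoprime_nine (by exact_mod_cast hd))
      (not_dvd_of_isCoprime_nine (by exact_mod_cast he))
  Gs := G9ser
  const := constantCoeff_G9ser
  tay_eq := tay_phi9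
  aut := by
    intro a b c d hdet hc z hz
    rw [← G9_eq_phi9, ← G9_eq_phi9]
    exact G9_automorphy a b c d hdet (by exact_mod_cast hc) hz
  k := 24
  k_pos := by norm_num
  e := 2
  S := {3}
  S_dvd := by
    intro d hd
    simp only [Finset.mem_singleton] at hd
    subst hd; norm_num
  r := fun _ => -1
  pow_eq := by
    intro τ
    rw [← G9_eq_phi9, Finset.prod_singleton, W_eq_eta 3 (by norm_num), discriminant_eq_eta]
    have n1 := eta_ne_zero' τ.im_pos
    have n3 := eta_ne_zero' (im_three_mul_pos τ.im_pos)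
    simp only [G9]
    push_cast
    rw [zpow_neg_one]
    field_simp

end Fermat.Agent.S36
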