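/-
S36 / [THETA] (helper31): for a weight one datum `G`, the ratios `G(dτ)/G(eτ)` are modular
functions on `Γ₀(N)` (`M₀ d ∣ N`, `M₀ e ∣ N`), holomorphic and nowhere vanishing on `ℍ`, of
moderate growth at all cusps.
-/
import Fermat.Agent.S36.Theta.Inst
import Fermat.Agent.S24.CharpolyAlt

set_option autoImplicit false

open Complex Function Filter ModularForm CongruenceSubgroup
open UpperHalfPlane hiding I
open scoped Real MatrixGroups Manifold Topology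
open Fermat.Agent.S24

noncomputable section

namespace Fermat.Agent.S36

local notation "𝕢" => Periodic.qParam
local notation "Δ" => ModularForm.discriminant

/-! ### functions all of whose conjugates are units of `MF N` -/

/-- All `SL(2,ℤ)`-conjugates are units of `MF N`. -/
def AllU (N : ℕ) (f : ℍ → ℂ) : Prop := ∀ g : SL(2, ℤ), S28.Unit.IsU N (fun τ => f (g • τ))

section AllU

variable {N : ℕ} [NeZero N]

theorem AllU.one : AllU N 1 := fun _ => S28.Unit.IsU.one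

theorem AllU.mul {f g : ℍ → ℂ} (hf : AllU N f) (hg : AllU N g) : AllU N (f * g) :=
  fun γ => (hf γ).mul (hg γ)

theorem AllU.inv {f : ℍ → ℂ} (hf : AllU N f) : AllU N f⁻¹ := fun γ => (hf γ).inv

theorem AllU.div {f g : ℍ → ℂ} (hf : AllU N f) (hg : AllU N g) : AllU N (f / g) := by
  rw [div_eq_mul_inv]; exact hf.mul hg.inv

theorem AllU.pow {f : ℍ → ℂ} (hf : AllU N f) (n : ℕ) : AllU N (f ^ n) :=
  fun γ => ((hf γ).pow n).1

theorem AllU.zpow {f : ℍ → ℂ} (hf : AllU N f) (n : ℤ) : AllU N (f ^ n) :=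
  fun γ => ((hf γ).zpow n).1

theorem AllU.prod {ι : Type*} (s : Finset ι) (f : ι → ℍ → ℂ) (hf : ∀ i ∈ s, AllU N (f i)) :
    AllU N (∏ i ∈ s, f i) := by
  intro γ
  have := (S28.Unit.IsU.prod (N := N) s (fun i τ => f i (γ • τ)) (fun i hi => hf i hi γ)).1
  convert this using 1
  funext τ
  simp [Finset.prod_apply]

theorem allU_W {d : ℕ} (hd : d ∣ N) : AllU N (S28.Unit.W d) :=
  fun g => (S28.Unit.W_comp_props N d (Nat.mem_divisors.mpr ⟨hd, NeZero.ne N⟩) g).1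

end AllU

/-! ### moderate growth of roots -/

theorem isBounded_of_pow {f : ℍ → ℂ} {k : ℕ} (hk : 0 < k)
    (h : IsBoundedAtImInfty (fun τ => f τ ^ k)) : IsBoundedAtImInfty f := by
  rw [isBoundedAtImInfty_iff] at h ⊢
  obtain ⟨M, A, hM⟩ := h
  refine ⟨max 1 M, A, fun z hz => ?_⟩
  have h1 := hM z hz
  rw [norm_pow] at h1
  by_cases h2 : ‖f z‖ ≤ 1
  · exact h2.trans (le_max_left _ _)
  · have h3 : 1 ≤ ‖f z‖ := (not_le.mp h2).le
    exact ((le_self_pow₀ h3 hk.ne').trans h1).trans (le_max_right _ _)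

theorem modG_of_pow {f : ℍ → ℂ} {k : ℕ} (hk : 0 < k) (h : CPAlt.ModG (fun τ => f τ ^ k)) :
    CPAlt.ModG f := by
  obtain ⟨m, hm⟩ := h
  refine ⟨m, isBounded_of_pow hk ?_⟩
  have h1 := (CPAlt.isBounded_discriminant_pow (m * (k - 1))).mul hm
  refine h1.congr' (Eventually.of_forall fun τ => ?_) EventuallyEq.rfl
  simp only [Pi.mul_apply]
  obtain ⟨j, rfl⟩ : ∃ j, k = j + 1 := ⟨k - 1, by omega⟩
  simp only [Nat.add_sub_cancel]
  ring

theorem modG_of_isU {N : ℕ} [NeZero N] {f : ℍ → ℂ} (h : S28.Unit.IsU N f) : CPAlt.ModG f := by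
  obtain ⟨m, hm⟩ := h.mem
  refine ⟨m, ?_⟩
  have := hm.2.2
  refine this.congr' (Eventually.of_forall fun τ => ?_) EventuallyEq.rfl
  simp only [Pi.mul_apply, Pi.pow_apply]
  ring

/-! ### the form and its ratios -/

variable {M₀ : ℕ} (D : Wt1 M₀)

/-- The form as a function on `ℍ`. -/
def Wt1.G : ℍ → ℂ := ofDisc D.φ

theorem Wt1.G_apply (τ : ℍ) : D.G τ = D.φ (𝕢 1 (τ : ℂ)) := rfl

theorem Wt1.G_ne_zero (τ : ℍ) : D.G τ ≠ 0 := D.ne_zero _ (qParam_mem_ball τ.im_pos)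

theorem Wt1.G_mem_HolPer : D.G ∈ HolPer 1 := ofDisc_mem_HolPer D.diff

theorem Wt1.G_scal_mem_HolPer (d : ℕ) [NeZero d] : D.G ∘ scal d ∈ HolPer 1 := by
  have h := D.G_mem_HolPer
  exact ⟨mdiff_comp_scal d h.1, by simpa using periodic_comp_scal d (by simpa using h.2.1),
    isBoundedAtImInfty_comp_scal d h.2.2⟩

theorem scal_scal (s d : ℕ) [NeZero s] [NeZero d] (τ : ℍ) :
    scal s (scal d τ) = scal (s * d) τ := by
  apply UpperHalfPlane.ext
  simp only [coe_scal]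
  push_cast
  ring

theorem discriminant_scal (d : ℕ) [NeZero d] (τ : ℍ) : Δ (scal d τ) = S28.Unit.W d τ * Δ τ := by
  rw [S28.Unit.W, ← scal_eq_smul, div_mul_cancel₀ _ (discriminant_ne_zero τ)]

theorem W_ne_zero (d : ℕ) (τ : ℍ) : S28.Unit.W d τ ≠ 0 :=
  div_ne_zero (discriminant_ne_zero _) (discriminant_ne_zero _)

theorem W_scal (s d : ℕ) [NeZero s] [NeZero d] (τ : ℍ) :
    S28.Unit.W s (scal d τ) = S28.Unit.W (s * d) τ / S28.Unit.W d τ := by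
  have h1 : S28.Unit.W s (scal d τ) = Δ (scal (s * d) τ) / Δ (scal d τ) := by
    rw [S28.Unit.W, ← scal_eq_smul, scal_scal]
  rw [h1, discriminant_scal, discriminant_scal,
    mul_div_mul_right _ _ (discriminant_ne_zero τ)]

/-- `G(dτ)^k / Δ(τ)^e` as a product of `Δ`-quotients. -/
def Wt1.X (d : ℕ) : ℍ → ℂ :=
  S28.Unit.W d ^ D.e * ∏ s ∈ D.S, (S28.Unit.W (s * d) / S28.Unit.W d) ^ D.r s

theorem Wt1.G_scal_pow [NeZero M₀] (d : ℕ) [NeZero d] (τ : ℍ) :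
    D.G (scal d τ) ^ D.k = Δ τ ^ D.e * D.X d τ := by
  rw [D.G_apply, D.pow_eq, discriminant_scal, Wt1.X]
  simp only [Pi.mul_apply, Pi.pow_apply, Finset.prod_apply, Pi.div_apply]
  rw [mul_pow]
  have : ∏ s ∈ D.S, S28.Unit.W s (scal d τ) ^ D.r s
      = ∏ s ∈ D.S, (S28.Unit.W (s * d) τ / S28.Unit.W d τ) ^ D.r s := by
    refine Finset.prod_congr rfl fun s hs => ?_
    have : NeZero s := ⟨fun h0 => NeZero.ne M₀ (by
      have := D.S_dvd s hs
      rw [h0] at this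
      exact Nat.eq_zero_of_zero_dvd this)⟩
    rw [W_scal]
  rw [this]
  ring

theorem Wt1.allU_X {N : ℕ} [NeZero N] {d : ℕ} (hd : M₀ * d ∣ N) : AllU N (D.X d) := by
  have hdN : d ∣ N := (Dvd.intro_left M₀ rfl).trans hd
  refine ((allU_W hdN).pow _).mul (AllU.prod _ _ fun s hs => AllU.zpow (AllU.div ?_ (allU_W hdN)) _)
  exact allU_W ((Nat.mul_dvd_mul_right (D.S_dvd s hs) d).trans hd)

/-- The ratio `G(dτ)/G(eτ)`. -/
def Wt1.rat (d e : ℕ) [NeZero d] [NeZero e] (τ : ℍ) : ℂ := D.G (scal d τ) / D.G (scal e τ)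

theorem Wt1.rat_ne_zero (d e : ℕ) [NeZero d] [NeZero e] (τ : ℍ) : D.rat d e τ ≠ 0 :=
  div_ne_zero (D.G_ne_zero _) (D.G_ne_zero _)

theorem Wt1.rat_pow [NeZero M₀] (d e : ℕ) [NeZero d] [NeZero e] (τ : ℍ) :
    D.rat d e τ ^ D.k = (D.X d / D.X e) τ := by
  rw [Wt1.rat, div_pow, D.G_scal_pow, D.G_scal_pow, Pi.div_apply,
    mul_div_mul_left _ _ (pow_ne_zero _ (discriminant_ne_zero τ))]

theorem Wt1.mdiff_rat (d e : ℕ) [NeZero d] [NeZero e] : MDiff (D.rat d e) := by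
  have h1 := (D.G_scal_mem_HolPer d).1
  have h2 := (D.G_scal_mem_HolPer e).1
  rw [UpperHalfPlane.mdifferentiable_iff] at h1 h2 ⊢
  exact DifferentiableOn.div h1 h2 (fun z _ => D.G_ne_zero _)

/-- The ratio as an element of `Hol`. -/
def Wt1.ratHol (d e : ℕ) [NeZero d] [NeZero e] : Hol := ⟨D.rat d e, D.mdiff_rat d e⟩

@[simp] theorem Wt1.ratHol_apply (d e : ℕ) [NeZero d] [NeZero e] (τ : ℍ) :
    (D.ratHol d e : ℍ → ℂ) τ = D.rat d e τ := rfl

/-- automorphy of `G(dτ)`. -/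
theorem Wt1.G_scal_smul (d : ℕ) [NeZero d] (γ : SL(2, ℤ)) (hγ : ((M₀ * d : ℕ) : ℤ) ∣ γ 1 0)
    (τ : ℍ) : D.G (scal d (γ • τ)) = (D.χ (γ 1 1) : ℂ) * cd γ τ * D.G (scal d τ) := by
  obtain ⟨c', hc'⟩ := hγ
  have hd0 : (d : ℂ) ≠ 0 := by exact_mod_cast NeZero.ne d
  have hdet := sl2_det γ
  have h := D.aut (γ 0 0) (γ 0 1 * d) (M₀ * c') (γ 1 1) (by
    rw [hc'] at hdet
    push_cast at hdet
    linear_combination hdet) (Dvd.intro _ rfl) (scal d τ) (scal d τ).im_pos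
  have hcd : cd γ τ = (((M₀ * c' : ℤ)) : ℂ) * ((scal d τ : ℍ) : ℂ) + (γ 1 1 : ℂ) := by
    rw [cd, hc', coe_scal]
    push_cast
    ring
  rw [D.G_apply, D.G_apply, hcd, ← h]
  congr 2
  rw [← hcd, coe_scal, coe_smul_eq, coe_scal]
  push_cast
  field_simp

theorem int_dvd_of_mem_Gamma0 {N : ℕ} {γ : SL(2, ℤ)} (hγ : γ ∈ Gamma0 N) : (N : ℤ) ∣ γ 1 0 :=
  (ZMod.intCast_zmod_eq_zero_iff_dvd _ _).mp (Gamma0_mem.mp hγ)

theorem Wt1.rat_smul {N : ℕ} (d e : ℕ) [NeZero d] [NeZero e] (hd : M₀ * d ∣ N) (he : M₀ * e ∣ N)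
    (γ : SL(2, ℤ)) (hγ : γ ∈ Gamma0 N) (τ : ℍ) : D.rat d e (γ • τ) = D.rat d e τ := by
  have h := int_dvd_of_mem_Gamma0 hγ
  rw [Wt1.rat, Wt1.rat, D.G_scal_smul d γ ((Int.natCast_dvd_natCast.mpr hd).trans h),
    D.G_scal_smul e γ ((Int.natCast_dvd_natCast.mpr he).trans h)]
  have h1 : (D.χ (γ 1 1) : ℂ) ≠ 0 := by
    intro h0
    have := D.chi_sq (γ 1 1)
    have h2 : D.χ (γ 1 1) = 0 := by exact_mod_cast h0
    rw [h2] at this
    simp at this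
  rw [mul_div_mul_left _ _ (mul_ne_zero h1 (cd_ne_zero γ τ))]

theorem Wt1.ratHol_mem_RN [NeZero M₀] {N : ℕ} [NeZero N] (d e : ℕ) [NeZero d] [NeZero e]
    (hd : M₀ * d ∣ N) (he : M₀ * e ∣ N) : D.ratHol d e ∈ CPAlt.RN N := by
  refine ⟨fun γ hγ => ?_, fun g => ?_⟩
  · apply Subtype.ext
    funext τ
    rw [actHol_apply]
    exact D.rat_smul d e hd he γ⁻¹ (inv_mem hγ) τ
  · show CPAlt.ModG _
    apply modG_of_pow D.k_pos
    have h := (D.allU_X hd).div (D.allU_X he) g⁻¹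
    have e1 : (fun τ => ((actHol g (D.ratHol d e) : Hol) : ℍ → ℂ) τ ^ D.k)
        = fun τ => (D.X d / D.X e) (g⁻¹ • τ) := by
      funext τ
      rw [actHol_apply, Wt1.ratHol_apply, D.rat_pow]
    rw [e1]
    exact modG_of_isU h

end Fermat.Agent.S36
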