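/-
S36 / [THETA] (helper31): the ratios `G(dτ)/G(eτ)` as elements of the function field `F_N`, with
their (integral) `q`-expansions.
-/
import Fermat.Agent.S36.Theta.Ratio
import Fermat.Agent.RED.QEP0

set_option autoImplicit false

open Complex Function Filter ModularForm CongruenceSubgroup ModularCurve
open UpperHalfPlane hiding I
open scoped Real MatrixGroups Manifold Topology
open Fermat.Agent.S24

noncomputable section

namespace Fermat.Agent.S36

local notation "ι" => HahnSeries.ofPowerSeries ℤ ℂ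

variable {M₀ : ℕ} (D : Wt1 M₀)

/-! ### formal series -/

section formal

variable (R : Type*) [CommRing R]

/-- The formal `q`-expansion of `G` over `R`. -/
def Wt1.GL : LaurentSeries R := HahnSeries.ofPowerSeries ℤ R (D.Gs.map (Int.castRingHom R))

/-- The formal `q`-expansion of `1/G` over `R`. -/
def Wt1.GLinv : LaurentSeries R :=
  HahnSeries.ofPowerSeries ℤ R ((D.Gs.invOfUnit 1).map (Int.castRingHom R))

theorem Wt1.GL_mul_GLinv : D.GL R * D.GLinv R = 1 := by
  rw [Wt1.GL, Wt1.GLinv, ← map_mul, ← map_mul,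
    PowerSeries.mul_invOfUnit _ 1 (by rw [D.const]; rfl), map_one, map_one]

variable {R} in
theorem Wt1.coeffMap_GL {S : Type*} [CommRing S] (f : R →+* S) :
    coeffMap f (D.GL R) = D.GL S := by
  rw [Wt1.GL, coeffMap_ofPowerSeries, Wt1.GL,
    ← RingHom.comp_apply (PowerSeries.map f) (PowerSeries.map (Int.castRingHom R)),
    ← PowerSeries.map_comp, RingHom.ext_int (f.comp (Int.castRingHom R)) (Int.castRingHom S)]

variable {R} in
theorem Wt1.coeffMap_GLinv {S : Type*} [CommRing S] (f : R →+* S) :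
    coeffMap f (D.GLinv R) = D.GLinv S := by
  rw [Wt1.GLinv, coeffMap_ofPowerSeries, Wt1.GLinv,
    ← RingHom.comp_apply (PowerSeries.map f) (PowerSeries.map (Int.castRingHom R)),
    ← PowerSeries.map_comp, RingHom.ext_int (f.comp (Int.castRingHom R)) (Int.castRingHom S)]

/-- The formal `q`-expansion of `G(dτ)/G(eτ)` over `R`. -/
def Wt1.ratS (d e : ℕ) [NeZero d] [NeZero e] : LaurentSeries R :=
  qExpand R d (D.GL R) * qExpand R e (D.GLinv R)

variable {R} in
theorem Wt1.coeffMap_ratS {S : Type*} [CommRing S] (f : R →+* S) (d e : ℕ) [NeZero d] [NeZero e] :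
    coeffMap f (D.ratS R d e) = D.ratS S d e := by
  rw [Wt1.ratS, map_mul, coeffMap_qExpand, coeffMap_qExpand, D.coeffMap_GL, D.coeffMap_GLinv,
    Wt1.ratS]

theorem Wt1.ratS_mul_ratS (d e : ℕ) [NeZero d] [NeZero e] : D.ratS R d e * D.ratS R e d = 1 := by
  have h1 : qExpand R d (D.GL R) * qExpand R d (D.GLinv R) = 1 := by
    rw [← map_mul, D.GL_mul_GLinv, map_one]
  have h2 : qExpand R e (D.GL R) * qExpand R e (D.GLinv R) = 1 := by
    rw [← map_mul, D.GL_mul_GLinv, map_one]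
  calc D.ratS R d e * D.ratS R e d
      = (qExpand R d (D.GL R) * qExpand R d (D.GLinv R))
        * (qExpand R e (D.GL R) * qExpand R e (D.GLinv R)) := by
        simp only [Wt1.ratS]; ring
    _ = 1 := by rw [h1, h2, one_mul]

theorem Wt1.qExpand_ratS (n d e : ℕ) [NeZero n] [NeZero d] [NeZero e] :
    qExpand R n (D.ratS R d e) = D.ratS R (n * d) (n * e) := by
  rw [Wt1.ratS, map_mul, qExpand_qExpand, qExpand_qExpand, Wt1.ratS]

end formal

/-! ### analytic side -/

theorem Wt1.qExpansion_G : qExpansion 1 D.G = D.Gs.map (Int.castRingHom ℂ) := by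
  rw [Wt1.G, qExpansion_ofDisc (continuousAt_of_diffOn D.diff), D.tay_eq]

/-- `G(dτ)` as an element of `HolPer 1`. -/
def Wt1.GPer (d : ℕ) [NeZero d] : HolPer 1 := ⟨D.G ∘ scal d, D.G_scal_mem_HolPer d⟩

theorem Wt1.qExpansion_GPer (d : ℕ) [NeZero d] :
    ι (qExpansion ((1 : ℕ) : ℝ) ((D.GPer d : HolPer 1) : ℍ → ℂ)) = qExpand ℂ d (D.GL ℂ) := by
  have h := D.G_mem_HolPer
  have := ofPowerSeries_qExpansion_comp_scal d (f := D.G) (by simpa using h.2.1) h.1 h.2.2
  rw [D.qExpansion_G] at this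
  simpa [Wt1.GL, Wt1.GPer] using this

theorem Wt1.GPer_ne_zero (d : ℕ) [NeZero d] : D.GPer d ≠ 0 := by
  intro h
  have := congrFun (congrArg Subtype.val h) UpperHalfPlane.I
  exact D.G_ne_zero _ this

/-- `G(dτ)/G(eτ)` as an element of `MerPer 1`. -/
def Wt1.ratPer (d e : ℕ) [NeZero d] [NeZero e] : MerPer 1 :=
  algebraMap (HolPer 1) (MerPer 1) (D.GPer d) / algebraMap (HolPer 1) (MerPer 1) (D.GPer e)

theorem Wt1.toMer_ratPer (d e : ℕ) [NeZero d] [NeZero e] :
    toMer 1 (D.ratPer d e) = algebraMap Hol Mer (D.ratHol d e) := by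
  rw [Wt1.ratPer, toMer_div]
  have hne : algebraMap Hol Mer (inclHol 1 (D.GPer e)) ≠ 0 := by
    intro h
    have h1 := (map_eq_zero_iff _ (IsFractionRing.injective Hol Mer)).mp h
    exact D.GPer_ne_zero e ((map_eq_zero_iff _ (inclHol_injective 1)).mp h1)
  rw [div_eq_iff hne, ← map_mul]
  congr 1
  apply Subtype.ext
  funext τ
  show D.G (scal d τ) = D.rat d e τ * D.G (scal e τ)
  rw [Wt1.rat, div_mul_cancel₀ _ (D.G_ne_zero _)]

theorem Wt1.toLaurent_ratPer (d e : ℕ) [NeZero d] [NeZero e] :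
    toLaurent 1 (D.ratPer d e) = D.ratS ℂ d e := by
  rw [Wt1.ratPer, toLaurent_div, D.qExpansion_GPer, D.qExpansion_GPer, Wt1.ratS]
  have h2 : qExpand ℂ e (D.GL ℂ) * qExpand ℂ e (D.GLinv ℂ) = 1 := by
    rw [← map_mul, D.GL_mul_GLinv, map_one]
  rw [div_eq_mul_inv, eq_comm]
  congr 1
  exact eq_inv_of_mul_eq_one_right h2

variable [NeZero M₀] (N : ℕ) [NeZero N] (d e : ℕ) [NeZero d] [NeZero e]

theorem Wt1.ratS_mem (hd : M₀ * d ∣ N) (he : M₀ * e ∣ N) :
    D.ratS Kb d e ∈ modularFunctionFieldBar N :=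
  RED.mem_bar_of_mem_RN N (D.ratHol d e) (D.ratHol_mem_RN d e hd he) (D.ratPer d e)
    (D.toMer_ratPer d e) _ (by rw [D.toLaurent_ratPer, D.coeffMap_ratS])

/-- `G(dτ)/G(eτ)` as an element of the function field of `X₀(N)`. -/
def Wt1.ratF (hd : M₀ * d ∣ N) (he : M₀ * e ∣ N) : FN N := ⟨D.ratS Kb d e, D.ratS_mem N d e hd he⟩

@[simp] theorem Wt1.coe_ratF (hd : M₀ * d ∣ N) (he : M₀ * e ∣ N) :
    (D.ratF N d e hd he : LaurentSeries Kb) = D.ratS Kb d e := rfl

theorem Wt1.ThetaMer_ratF (hd : M₀ * d ∣ N) (he : M₀ * e ∣ N) :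
    ThetaMer N (D.ratF N d e hd he) = algebraMap Hol Mer (D.ratHol d e) :=
  RED.ThetaMer_eq_of_mem_RN N (D.ratHol d e) (D.ratHol_mem_RN d e hd he) (D.ratPer d e)
    (D.toMer_ratPer d e) _ (by rw [D.toLaurent_ratPer, D.coeffMap_ratS])

theorem Wt1.ratF_mul_ratF (hd : M₀ * d ∣ N) (he : M₀ * e ∣ N) :
    D.ratF N d e hd he * D.ratF N e d he hd = 1 :=
  Subtype.ext (D.ratS_mul_ratS Kb d e)

end Fermat.Agent.S36
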