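/-
S36 / [THETA] (helper31): the Atkin–Lehner transforms of the ratios `G(e₁τ)/G(e₂τ)`.
-/
import Fermat.Agent.S36.Theta.Field
import Fermat.Agent.S36.Mod.AL2

set_option autoImplicit false
set_option linter.unusedSectionVars false

open Complex Function Filter ModularForm CongruenceSubgroup ModularCurve
open UpperHalfPlane hiding I
open scoped Real MatrixGroups Manifold Topology
open Fermat.Agent.S24 Fermat.Agent.RED.ES

noncomputable section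

namespace Fermat.Agent.S36

local notation "𝕢" => Periodic.qParam

variable {M₀ : ℕ} (D : Wt1 M₀)

theorem Wt1.chi_ne_zero (d : ℤ) : (D.χ d : ℂ) ≠ 0 := by
  intro h0
  have := D.chi_sq d
  have h2 : D.χ d = 0 := by exact_mod_cast h0
  rw [h2] at this
  simp at this

theorem Wt1.chi_sq' (d : ℤ) : (D.χ d : ℂ) * (D.χ d : ℂ) = 1 := by exact_mod_cast D.chi_sq d

theorem Wt1.chi_inv (d : ℤ) : (D.χ d : ℂ)⁻¹ = (D.χ d : ℂ) :=
  inv_eq_of_mul_eq_one_left (D.chi_sq' d)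

section

variable (N Q : ℕ) [NeZero N] [NeZero Q] (x y : ℤ) (h : (Q : ℤ) * x - N * y = 1)

/-- `G(e · Wτ) = χ(e') e' (Nτ + 1) G(e'τ)` for `e e' = Q`. -/
theorem Wt1.G_scal_wGL (hN : M₀ ∣ N) (e e' : ℕ) [NeZero e] [NeZero e'] (he : e * e' = Q) (τ : ℍ) :
    D.G (scal e (wGL N Q x y h • τ))
      = (D.χ (e' : ℤ) : ℂ) * ((e' : ℂ) * ((N : ℂ) * τ + 1)) * D.G (scal e' τ) := by
  have hQ : (Q : ℂ) = e * e' := by exact_mod_cast he.symm
  have hQ' : (Q : ℤ) = e * e' := by exact_mod_cast he.symm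
  have he0 : (e : ℂ) ≠ 0 := by exact_mod_cast NeZero.ne e
  have he0' : (e' : ℂ) ≠ 0 := by exact_mod_cast NeZero.ne e'
  have hden := den_ne_zero N Q τ
  have hden1 : (N : ℂ) * τ + 1 ≠ 0 := by
    intro h0
    apply hden
    linear_combination (Q : ℂ) * h0
  have key := D.aut (e * x) y N e' (by rw [hQ'] at h; linear_combination h)
    (Int.natCast_dvd_natCast.mpr hN) (scal e' τ) (scal e' τ).im_pos
  rw [D.G_apply, D.G_apply]
  have e1 : ((scal e (wGL N Q x y h • τ) : ℍ) : ℂ)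
      = ((((e * x : ℤ)) : ℂ) * ((scal e' τ : ℍ) : ℂ) + (y : ℂ))
        / (((N : ℤ) : ℂ) * ((scal e' τ : ℍ) : ℂ) + ((e' : ℤ) : ℂ)) := by
    rw [coe_scal, coe_wGL_smul, coe_scal, hQ]
    push_cast
    have hd2 : (N : ℂ) * ((e' : ℂ) * τ) + e' ≠ 0 := by
      intro h0
      apply hden1
      have : (e' : ℂ) * ((N : ℂ) * τ + 1) = 0 := by linear_combination h0
      exact (mul_eq_zero.mp this).resolve_left he0'
    have hd3 : (N : ℂ) * ((e : ℂ) * e') * τ + e * e' ≠ 0 := by rw [← hQ]; exact hden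
    field_simp
  rw [e1, key, coe_scal]
  push_cast
  ring

theorem Wt1.rat_wGL (hN : M₀ ∣ N) (e₁ e₁' e₂ e₂' : ℕ) [NeZero e₁] [NeZero e₁'] [NeZero e₂]
    [NeZero e₂'] (h₁ : e₁ * e₁' = Q) (h₂ : e₂ * e₂' = Q) (τ : ℍ) :
    D.rat e₁ e₂ (wGL N Q x y h • τ)
      = ((D.χ (e₁' : ℤ) : ℂ) * (D.χ (e₂' : ℤ) : ℂ) * ((e₁' : ℂ) / (e₂' : ℂ))) * D.rat e₁' e₂' τ := by
  have hden := den_ne_zero N Q τ
  have hden1 : (N : ℂ) * τ + 1 ≠ 0 := by
    intro h0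
    apply hden
    linear_combination (Q : ℂ) * h0
  have he0' : (e₂' : ℂ) ≠ 0 := by exact_mod_cast NeZero.ne e₂'
  rw [Wt1.rat, D.G_scal_wGL N Q x y h hN e₁ e₁' h₁, D.G_scal_wGL N Q x y h hN e₂ e₂' h₂, Wt1.rat]
  have hc := D.chi_ne_zero (e₂' : ℤ)
  have hG := D.G_ne_zero (scal e₂' τ)
  have hs := D.chi_sq' (e₂' : ℤ)
  field_simp
  linear_combination (-(D.χ (e₁' : ℤ) : ℂ) * (e₁' : ℂ) * D.G (scal e₁' τ)) * hs

end

section

variable [NeZero M₀] (L N Q : ℕ) [NeZero L] [NeZero N] [NeZero Q] (hL : L = N * Q)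
  (x y : ℤ) (h : (Q : ℤ) * x - N * y = 1)

include hL in
theorem mul_dvd_level' (hN : M₀ ∣ N) {e : ℕ} (he : e ∣ Q) : M₀ * e ∣ L := by
  rw [hL]; exact mul_dvd_mul hN he

/-- The constant in the Atkin–Lehner transform. -/
def Wt1.alConst (e₁' e₂' : ℕ) : Kb :=
  ((D.χ (e₁' : ℤ) : ℤ) : Kb) * ((D.χ (e₂' : ℤ) : ℤ) : Kb) * ((e₁' : Kb) / (e₂' : Kb))

theorem Wt1.alW_ratF (hN : M₀ ∣ N) (e₁ e₁' e₂ e₂' : ℕ) [NeZero e₁] [NeZero e₁'] [NeZero e₂]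
    [NeZero e₂'] (h₁ : e₁ * e₁' = Q) (h₂ : e₂ * e₂' = Q) :
    alW L N Q hL x y h (D.ratF L e₁ e₂ (mul_dvd_level' L N Q hL hN ⟨e₁', h₁.symm⟩)
        (mul_dvd_level' L N Q hL hN ⟨e₂', h₂.symm⟩))
      = algebraMap Kb (FN L) (D.alConst e₁' e₂') *
        D.ratF L e₁' e₂' (mul_dvd_level' L N Q hL hN ⟨e₁, by rw [← h₁, mul_comm]⟩)
          (mul_dvd_level' L N Q hL hN ⟨e₂, by rw [← h₂, mul_comm]⟩) := by
  rw [alW_eq_iff, preW_apply, D.ThetaMer_ratF, compMer_algebraMap, map_mul, ThetaMer_algebraMap,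
    D.ThetaMer_ratF, IsScalarTower.algebraMap_apply ℂ Hol Mer, ← map_mul]
  congr 1
  apply Subtype.ext
  funext τ
  show D.rat e₁ e₂ (wGL N Q x y h • τ) = iotaK (D.alConst e₁' e₂') * D.rat e₁' e₂' τ
  rw [D.rat_wGL N Q x y h hN e₁ e₁' e₂ e₂' h₁ h₂, Wt1.alConst]
  simp

end

end Fermat.Agent.S36
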