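/-
S36 / [THETA] (helper31): the expansions of the ratios `G(dτ)/G(eτ)` at the middle cusp `1/q` of
`X₀(M q²)` (helper75's `sigma2`).
-/
import Fermat.Agent.S36.Theta.AL
import Fermat.Agent.S36.Mod.Cusp2

set_option autoImplicit false
set_option linter.unusedSectionVars false

open Complex Function Filter ModularForm CongruenceSubgroup ModularCurve
open UpperHalfPlane hiding I
open scoped Real MatrixGroups Manifold Topology
open Fermat.Agent.S24 Fermat.Agent.RED.ES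

noncomputable section

namespace Fermat.Agent.S36

local notation "𝕢" => Periodic.qParam
local notation "ι" => HahnSeries.ofPowerSeries ℤ ℂ

variable {M₀ : ℕ} (D : Wt1 M₀)

section pointwise

variable (M q : ℕ) [NeZero M] [NeZero q] (k B n : ℤ)

theorem cd_gam (τ : ℍ) : cd (gam M q k) τ = (q : ℂ) * M * k * τ + 1 := by
  simp [cd, gam]

theorem gam_one_one : (gam M q k) 1 1 = 1 := by simp [gam]

theorem gam_one_zero : (gam M q k) 1 0 = (q : ℤ) * M * k := by simp [gam]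

theorem coe_gam_smul (τ : ℍ) :
    ((gam M q k • τ : ℍ) : ℂ) = (τ : ℂ) / ((q : ℂ) * M * k * τ + 1) := by
  rw [coe_smul_eq, cd_gam]
  simp [gam]

/-- `G(d γτ) = (qMkτ + 1) G(dτ)` for `d ∣ q`. -/
theorem Wt1.G_scal_gam (hM : M₀ ∣ M) (d : ℕ) [NeZero d] (hd : d ∣ q) (τ : ℍ) :
    D.G (scal d (gam M q k • τ)) = ((q : ℂ) * M * k * τ + 1) * D.G (scal d τ) := by
  rw [D.G_scal_smul d (gam M q k) ?_ τ, gam_one_one, D.chi_one, cd_gam]
  · simp
  · rw [gam_one_zero]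
    have : ((M₀ * d : ℕ) : ℤ) ∣ (q : ℤ) * M := by
      rw [mul_comm (q : ℤ)]
      exact_mod_cast mul_dvd_mul hM hd
    exact Dvd.dvd.mul_right this k

/-- `G(q² γτ) = χ(n) (qMkτ + 1)/q · G(τ + B/q)`. -/
theorem Wt1.G_scal_sq_gam (hM : M₀ ∣ M) (h : (q : ℤ) * n + M * k * B = 1) (τ : ℍ) :
    D.G (scal (q * q) (gam M q k • τ))
      = (D.χ n : ℂ) * (((q : ℂ) * M * k * τ + 1) / q) * D.G (((B : ℝ) / q) +ᵥ τ) := by
  have hq0 : (q : ℂ) ≠ 0 := by exact_mod_cast NeZero.ne q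
  have h' : (q : ℂ) * n + M * k * B = 1 := by exact_mod_cast h
  have hden1 : (q : ℂ) * M * k * (τ : ℂ) + 1 ≠ 0 := by
    rw [← cd_gam]; exact cd_ne_zero _ τ
  set z : ℍ := ((B : ℝ) / q) +ᵥ τ with hz
  have hzc : (z : ℂ) = (B : ℂ) / q + τ := by rw [hz, coe_vadd]; push_cast; ring
  have key := D.aut q (-B) (M * k) n (by linear_combination h)
    (Dvd.dvd.mul_right (Int.natCast_dvd_natCast.mpr hM) k) z z.im_pos
  have e2 : (((M * k : ℤ)) : ℂ) * (z : ℂ) + (n : ℂ) = ((q : ℂ) * M * k * τ + 1) / q := by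
    rw [hzc, ← h']
    push_cast
    field_simp
    ring
  rw [D.G_apply, D.G_apply]
  have e1 : ((scal (q * q) (gam M q k • τ) : ℍ) : ℂ)
      = ((((q : ℤ)) : ℂ) * (z : ℂ) + ((-B : ℤ) : ℂ)) / ((((M * k : ℤ)) : ℂ) * (z : ℂ) + (n : ℂ)) := by
    rw [e2, coe_scal, coe_gam_smul, hzc]
    push_cast
    field_simp
    ring
  rw [e1, key, e2]

theorem Wt1.chi_eq_of_mul (hM : M₀ ∣ M) (h : (q : ℤ) * n + M * k * B = 1) :
    D.χ n = D.χ (q : ℤ) := by
  obtain ⟨M', rfl⟩ := hM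
  have c1 : IsCoprime (q : ℤ) (M₀ : ℤ) := ⟨n, M' * k * B, by push_cast at h; linear_combination h⟩
  have c2 : IsCoprime n (M₀ : ℤ) := ⟨q, M' * k * B, by push_cast at h; linear_combination h⟩
  have h1 : D.χ ((q : ℤ) * n) = 1 := by
    rw [← D.chi_one]
    apply D.chi_mod
    refine ⟨-(M' * k * B), ?_⟩
    push_cast at h
    linear_combination h
  rw [D.chi_mul _ _ c1 c2] at h1
  have h2 := D.chi_sq (q : ℤ)
  calc D.χ n = (D.χ (q : ℤ) * D.χ (q : ℤ)) * D.χ n := by rw [h2, one_mul]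
    _ = D.χ (q : ℤ) * (D.χ (q : ℤ) * D.χ n) := by ring
    _ = D.χ (q : ℤ) := by rw [h1, mul_one]

theorem Wt1.rat_gam_of_dvd (hM : M₀ ∣ M) (d e : ℕ) [NeZero d] [NeZero e] (hd : d ∣ q) (he : e ∣ q)
    (τ : ℍ) : D.rat d e (gam M q k • τ) = D.rat d e τ := by
  have hden1 : (q : ℂ) * M * k * (τ : ℂ) + 1 ≠ 0 := by
    rw [← cd_gam]; exact cd_ne_zero _ τ
  rw [Wt1.rat, D.G_scal_gam M q k hM d hd, D.G_scal_gam M q k hM e he, Wt1.rat,
    mul_div_mul_left _ _ hden1]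

theorem Wt1.rat_sq_gam (hM : M₀ ∣ M) (h : (q : ℤ) * n + M * k * B = 1) (τ : ℍ) :
    D.rat (q * q) q (gam M q k • τ)
      = ((D.χ (q : ℤ) : ℂ) / q) * (D.G (((B : ℝ) / q) +ᵥ τ) / D.G (scal q τ)) := by
  have hq0 : (q : ℂ) ≠ 0 := by exact_mod_cast NeZero.ne q
  have hden1 : (q : ℂ) * M * k * (τ : ℂ) + 1 ≠ 0 := by
    rw [← cd_gam]; exact cd_ne_zero _ τ
  rw [Wt1.rat, D.G_scal_sq_gam M q k B n hM h, D.G_scal_gam M q k hM q dvd_rfl,
    D.chi_eq_of_mul M q k B n hM h]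
  have hG := D.G_ne_zero (scal q τ)
  field_simp

end pointwise

section sigma

variable [NeZero M₀] (M q : ℕ) [NeZero M] [NeZero q] (k B n : ℤ) (hq : q.Prime)
  (h : (q : ℤ) * n + M * k * B = 1) (ζ : Kbˣ)
  (hζ : iotaK (ζ : Kb) = (expU 1 ((B : ℝ) / q) : ℂ))

theorem lvl_dvd {M₀ M q : ℕ} (hM : M₀ ∣ M) {d : ℕ} (hd : d ∣ q * q) : M₀ * d ∣ M * q * q := by
  rw [mul_assoc]; exact mul_dvd_mul hM hd

/-- The ratios of level `M q` keep their expansion at the middle cusp. -/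
theorem Wt1.sigma2_ratF_of_dvd (hM : M₀ ∣ M) (d e : ℕ) [NeZero d] [NeZero e] (hd : d ∣ q)
    (he : e ∣ q) :
    sigma2 M q k B n hq h ζ hζ (D.ratF (M * q * q) d e (lvl_dvd hM (hd.mul_right q))
      (lvl_dvd hM (he.mul_right q))) = D.ratS Kb d e := by
  rw [sigma2_eq_iff, lau2_apply]
  have : per2 M q k B n hq h (D.ratF (M * q * q) d e (lvl_dvd hM (hd.mul_right q))
      (lvl_dvd hM (he.mul_right q))) = D.ratPer d e := by
    rw [per2_eq_iff, pre2_apply, D.ThetaMer_ratF, actMer_algebraMap, D.toMer_ratPer]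
    congr 1
    apply Subtype.ext
    funext τ
    rw [actHol_apply, inv_inv]
    exact D.rat_gam_of_dvd M q k hM d e hd he τ
  rw [this, D.toLaurent_ratPer, D.coeffMap_ratS]

theorem scal_one (τ : ℍ) : scal 1 τ = τ := by
  apply UpperHalfPlane.ext
  simp

/-- The element of `MerPer 1` giving `G(q²τ)/G(qτ)` at the middle cusp. -/
def Wt1.per2Sq : MerPer 1 :=
  algebraMap ℂ (MerPer 1) ((D.χ (q : ℤ) : ℂ) / q) *
    (algebraMap (HolPer 1) (MerPer 1) (transHolPer 1 ((B : ℝ) / q) (D.GPer 1)) /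
      algebraMap (HolPer 1) (MerPer 1) (D.GPer q))

theorem Wt1.toMer_per2Sq (hM : M₀ ∣ M) (h : (q : ℤ) * n + M * k * B = 1) :
    toMer 1 (D.per2Sq q B) = algebraMap Hol Mer (actHol (gam M q k)⁻¹ (D.ratHol (q * q) q)) := by
  rw [Wt1.per2Sq, map_mul, toMer_const, toMer_div]
  have hne : algebraMap Hol Mer (inclHol 1 (D.GPer q)) ≠ 0 := by
    intro h
    have h1 := (map_eq_zero_iff _ (IsFractionRing.injective Hol Mer)).mp h
    exact D.GPer_ne_zero q ((map_eq_zero_iff _ (inclHol_injective 1)).mp h1)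
  rw [mul_div_assoc', div_eq_iff hne, IsScalarTower.algebraMap_apply ℂ Hol Mer, ← map_mul,
    ← map_mul]
  congr 1
  apply Subtype.ext
  funext τ
  show ((D.χ (q : ℤ) : ℂ) / q) * D.G (scal 1 (((B : ℝ) / q) +ᵥ τ))
    = D.rat (q * q) q ((gam M q k)⁻¹⁻¹ • τ) * D.G (scal q τ)
  rw [inv_inv, D.rat_sq_gam M q k B n hM h, scal_one]
  have hG := D.G_ne_zero (scal q τ)
  field_simp

theorem Wt1.toLaurent_per2Sq :
    toLaurent 1 (D.per2Sq q B) = HahnSeries.C ((D.χ (q : ℤ) : ℂ) / q) *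
      (rot (expU 1 ((B : ℝ) / q)) (D.GL ℂ) * qExpand ℂ q (D.GLinv ℂ)) := by
  rw [Wt1.per2Sq, map_mul, toLaurent_const, toLaurent_div, D.qExpansion_GPer]
  have h1 : ι (qExpansion ((1 : ℕ) : ℝ) ((transHolPer 1 ((B : ℝ) / q) (D.GPer 1) : HolPer 1) : ℍ → ℂ))
      = rot (expU 1 ((B : ℝ) / q)) (D.GL ℂ) := by
    have := qExpLaurent_trans 1 ((B : ℝ) / q) (D.GPer 1)
    have h2 : qExpLaurent 1 (D.GPer 1) = D.GL ℂ := by
      show ι (qExpansion ((1 : ℕ) : ℝ) ((D.GPer 1 : HolPer 1) : ℍ → ℂ)) = _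
      rw [D.qExpansion_GPer, qExpand_one_apply]
    rw [h2] at this
    exact this
  rw [h1]
  have h2 : qExpand ℂ q (D.GL ℂ) * qExpand ℂ q (D.GLinv ℂ) = 1 := by
    rw [← map_mul, D.GL_mul_GLinv, map_one]
  rw [eq_inv_of_mul_eq_one_right h2, ← div_eq_mul_inv]

/-- **The expansion of `G(q²τ)/G(qτ)` at the middle cusp**: `(χ(q)/q) G(ζT)/G(T^q)`. -/
theorem Wt1.sigma2_ratF_sq (hM : M₀ ∣ M) :
    sigma2 M q k B n hq h ζ hζ (D.ratF (M * q * q) (q * q) q (lvl_dvd hM dvd_rfl)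
      (lvl_dvd hM (dvd_mul_right q q)))
      = HahnSeries.C (((D.χ (q : ℤ) : ℤ) : Kb) / (q : Kb)) *
        (rot ζ (D.GL Kb) * qExpand Kb q (D.GLinv Kb)) := by
  rw [sigma2_eq_iff, lau2_apply]
  have : per2 M q k B n hq h (D.ratF (M * q * q) (q * q) q (lvl_dvd hM dvd_rfl)
      (lvl_dvd hM (dvd_mul_right q q))) = D.per2Sq q B := by
    rw [per2_eq_iff, pre2_apply, D.ThetaMer_ratF, actMer_algebraMap, D.toMer_per2Sq M q k B n hM h]
  rw [this, D.toLaurent_per2Sq, map_mul, map_mul, coeffMap_C, coeffMap_rot iotaK.toRingHom ζ _ hζ,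
    coeffMap_qExpand, D.coeffMap_GL, D.coeffMap_GLinv]
  congr 2
  simp

end sigma

end Fermat.Agent.S36
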