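/-
S36 / [THETA] (helper31): the functions `a = χ(q) q G(q²τ)/G(qτ)`, `b = G(τ)/G(qτ)` on `X₀(M q²)`:
expansions at the three cusps `∞`, `1/q`, `0`-type (`W_{q²} ∞`), integrality over `Kb[j]`,
Galois invariance.
-/
import Fermat.Agent.S36.Theta.Cusp2
import Fermat.Agent.S36.Theta.Integral

set_option autoImplicit false
set_option linter.unusedSectionVars false

open Complex Function Filter ModularForm CongruenceSubgroup ModularCurve
open UpperHalfPlane hiding I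
open scoped Real MatrixGroups Manifold Topology
open Fermat.Agent.S24 Fermat.Agent.RED.ES

noncomputable section

namespace Fermat.Agent.S36

variable {M₀ : ℕ} [NeZero M₀] (D : Wt1 M₀) (M q : ℕ) [NeZero M] [NeZero q] (hM : M₀ ∣ M)

/-- `b = G(τ)/G(qτ)` at level `M q²`. -/
def Wt1.bF : FN (M * q * q) :=
  D.ratF (M * q * q) 1 q (lvl_dvd hM (one_dvd _)) (lvl_dvd hM (dvd_mul_right q q))

/-- `G(q²τ)/G(qτ)` at level `M q²`. -/
def Wt1.a0F : FN (M * q * q) :=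
  D.ratF (M * q * q) (q * q) q (lvl_dvd hM dvd_rfl) (lvl_dvd hM (dvd_mul_right q q))

/-- The constant `χ(q) q`. -/
def Wt1.cq : Kb := ((D.χ (q : ℤ) : ℤ) : Kb) * (q : Kb)

/-- `a = χ(q) q G(q²τ)/G(qτ)` at level `M q²`. -/
def Wt1.aF : FN (M * q * q) := algebraMap Kb _ (D.cq q) * D.a0F M q hM

theorem Wt1.chiK_sq (d : ℤ) : ((D.χ d : ℤ) : Kb) * ((D.χ d : ℤ) : Kb) = 1 := by
  exact_mod_cast D.chi_sq d

theorem Wt1.cq_ne_zero : D.cq q ≠ 0 := by
  have h1 : ((D.χ (q : ℤ) : ℤ) : Kb) ≠ 0 := by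
    intro h0
    have := D.chiK_sq (q : ℤ)
    rw [h0] at this
    simp at this
  exact mul_ne_zero h1 (by exact_mod_cast NeZero.ne q)

@[simp] theorem Wt1.coe_bF : (D.bF M q hM : LaurentSeries Kb) = D.ratS Kb 1 q := rfl

@[simp] theorem Wt1.coe_a0F : (D.a0F M q hM : LaurentSeries Kb) = D.ratS Kb (q * q) q := rfl

theorem Wt1.coe_aF :
    (D.aF M q hM : LaurentSeries Kb) = HahnSeries.C (D.cq q) * D.ratS Kb (q * q) q := by
  show algebraMap Kb (LaurentSeries Kb) (D.cq q) * D.ratS Kb (q * q) q = _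
  rw [algebraMap_laurentSeries_eq_single, HahnSeries.C_apply]

/-- the inverse of `b`. -/
def Wt1.bInvF : FN (M * q * q) :=
  D.ratF (M * q * q) q 1 (lvl_dvd hM (dvd_mul_right q q)) (lvl_dvd hM (one_dvd _))

/-- the inverse of `G(q²τ)/G(qτ)`. -/
def Wt1.a0InvF : FN (M * q * q) :=
  D.ratF (M * q * q) q (q * q) (lvl_dvd hM (dvd_mul_right q q)) (lvl_dvd hM dvd_rfl)

theorem Wt1.bF_mul_bInvF : D.bF M q hM * D.bInvF M q hM = 1 := D.ratF_mul_ratF _ _ _ _ _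

theorem Wt1.a0F_mul_a0InvF : D.a0F M q hM * D.a0InvF M q hM = 1 := D.ratF_mul_ratF _ _ _ _ _

theorem Wt1.bF_ne_zero : D.bF M q hM ≠ 0 := left_ne_zero_of_mul_eq_one (D.bF_mul_bInvF M q hM)

theorem Wt1.a0F_ne_zero : D.a0F M q hM ≠ 0 := left_ne_zero_of_mul_eq_one (D.a0F_mul_a0InvF M q hM)

theorem Wt1.aF_ne_zero : D.aF M q hM ≠ 0 :=
  mul_ne_zero (by simpa using D.cq_ne_zero q) (D.a0F_ne_zero M q hM)

theorem Wt1.inv_bF : (D.bF M q hM)⁻¹ = D.bInvF M q hM :=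
  inv_eq_of_mul_eq_one_right (D.bF_mul_bInvF M q hM)

theorem Wt1.inv_aF :
    (D.aF M q hM)⁻¹ = algebraMap Kb _ (D.cq q)⁻¹ * D.a0InvF M q hM := by
  rw [Wt1.aF, mul_inv, map_inv₀, inv_eq_of_mul_eq_one_right (D.a0F_mul_a0InvF M q hM)]

/-! ### integrality over `Kb[j]` -/

theorem Wt1.isIntegral_ratF (N : ℕ) [NeZero N] (d e : ℕ) [NeZero d] [NeZero e] (hd : M₀ * d ∣ N)
    (he : M₀ * e ∣ N) : IsIntegral (Algebra.adjoin Kb {jF N}) (D.ratF N d e hd he) :=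
  isIntegral_of_ThetaMer_mem_RN N _ _ (D.ratHol_mem_RN d e hd he) (D.ThetaMer_ratF N d e hd he)

theorem isIntegral_const_abs {K F : Type*} [Field K] [Field F] [Algebra K F] (j : F) (c : K) :
    IsIntegral (Algebra.adjoin K {j}) (algebraMap K F c) := by
  rw [IsScalarTower.algebraMap_apply K (Algebra.adjoin K {j}) F]
  exact isIntegral_algebraMap

theorem isIntegral_const (N : ℕ) (c : Kb) :
    IsIntegral (Algebra.adjoin Kb {jF N}) (algebraMap Kb (FN N) c) :=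
  isIntegral_const_abs (jF N) c

theorem Wt1.isIntegral_bF : IsIntegral (Algebra.adjoin Kb {jF (M * q * q)}) (D.bF M q hM) :=
  D.isIntegral_ratF _ _ _ _ _

theorem Wt1.isIntegral_inv_bF :
    IsIntegral (Algebra.adjoin Kb {jF (M * q * q)}) (D.bF M q hM)⁻¹ := by
  rw [D.inv_bF]; exact D.isIntegral_ratF _ _ _ _ _

theorem isIntegral_mul_abs {K F : Type*} [Field K] [Field F] [Algebra K F] (j : F) {x y : F}
    (hx : IsIntegral (Algebra.adjoin K {j}) x) (hy : IsIntegral (Algebra.adjoin K {j}) y) :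
    IsIntegral (Algebra.adjoin K {j}) (x * y) := hx.mul hy

theorem Wt1.isIntegral_aF : IsIntegral (Algebra.adjoin Kb {jF (M * q * q)}) (D.aF M q hM) :=
  isIntegral_mul_abs (jF (M * q * q)) (isIntegral_const (M * q * q) (D.cq q))
    (D.isIntegral_ratF (M * q * q) (q * q) q (lvl_dvd hM dvd_rfl) (lvl_dvd hM (dvd_mul_right q q)))

theorem Wt1.isIntegral_inv_aF :
    IsIntegral (Algebra.adjoin Kb {jF (M * q * q)}) (D.aF M q hM)⁻¹ := by
  rw [D.inv_aF]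
  exact isIntegral_mul_abs (jF (M * q * q)) (isIntegral_const (M * q * q) (D.cq q)⁻¹)
    (D.isIntegral_ratF (M * q * q) q (q * q) (lvl_dvd hM (dvd_mul_right q q)) (lvl_dvd hM dvd_rfl))

/-! ### Galois invariance -/

theorem Wt1.coeffMap_ratS_self (σ : Kb →+* Kb) (d e : ℕ) [NeZero d] [NeZero e] :
    coeffMap σ (D.ratS Kb d e) = D.ratS Kb d e := D.coeffMap_ratS σ d e

theorem Wt1.coeffMap_bF (σ : Kb →+* Kb) :
    coeffMap σ (D.bF M q hM : LaurentSeries Kb) = D.bF M q hM := D.coeffMap_ratS σ 1 q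

theorem Wt1.coeffMap_aF (σ : Kb →+* Kb) :
    coeffMap σ (D.aF M q hM : LaurentSeries Kb) = D.aF M q hM := by
  rw [D.coe_aF, map_mul, D.coeffMap_ratS, coeffMap_C, Wt1.cq]
  simp

/-! ### the middle cusp -/

theorem Wt1.exists_sigma2 (hq : q.Prime) (hqM : ¬ q ∣ M) (ζ : Kbˣ) (hζ : IsPrimitiveRoot ζ q) :
    ∃ s : FN (M * q * q) →+* LaurentSeries Kb,
      (∀ a : Kb, s (algebraMap Kb (FN (M * q * q)) a) = HahnSeries.C a) ∧
      (∀ y : FN (M * q), s (heckeAlphaBar Kb (M * q) q y) = (y : LaurentSeries Kb)) ∧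
      (∀ u : FN M, s (heckeBetaBar Kb (M * q) q (heckeBetaBar Kb M q u))
        = rot ζ (u : LaurentSeries Kb)) ∧
      s (D.bF M q hM) = D.ratS Kb 1 q ∧
      s (D.aF M q hM) = rot ζ (D.GL Kb) * qExpand Kb q (D.GLinv Kb) := by
  have h1 : IsPrimitiveRoot (iotaK (ζ : Kb)) q :=
    (IsPrimitiveRoot.coe_units_iff.mpr hζ).map_of_injective iotaK.toRingHom.injective
  obtain ⟨i, -, hcop, hexp⟩ := (Complex.isPrimitiveRoot_iff _ q hq.ne_zero).1 h1
  have hc : IsCoprime (q : ℤ) ((M * i : ℕ) : ℤ) := by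
    rw [Nat.isCoprime_iff_coprime]
    exact Nat.Coprime.mul_right ((Nat.Prime.coprime_iff_not_dvd hq).mpr hqM) hcop.symm
  obtain ⟨a, b, hab⟩ := hc
  have h : (q : ℤ) * a + M * b * (i : ℤ) = 1 := by
    rw [← hab]; push_cast; ring
  have hζ' : iotaK (ζ : Kb) = (expU 1 (((i : ℤ) : ℝ) / q) : ℂ) := by
    rw [← hexp, coe_expU]
    congr 1
    push_cast
    ring
  refine ⟨sigma2 M q b i a hq h ζ hζ', sigma2_algebraMap M q b i a hq h ζ hζ',
    sigma2_alpha M q b i a hq h ζ hζ', sigma2_beta_beta M q b i a hq h ζ hζ',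
    D.sigma2_ratF_of_dvd M q b i a hq h ζ hζ' hM 1 q (one_dvd _) dvd_rfl, ?_⟩
  rw [Wt1.aF, map_mul, sigma2_algebraMap, Wt1.a0F, D.sigma2_ratF_sq M q b i a hq h ζ hζ' hM,
    ← mul_assoc, ← map_mul]
  have hq0 : (q : Kb) ≠ 0 := by exact_mod_cast NeZero.ne q
  have : D.cq q * (((D.χ (q : ℤ) : ℤ) : Kb) / (q : Kb)) = 1 := by
    rw [Wt1.cq]
    field_simp
    have := D.chiK_sq (q : ℤ)
    rw [← sq] at this
    exact this
  rw [this, map_one, one_mul]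

/-! ### Atkin–Lehner -/

include hM in
theorem Wt1.chi_sq_nat (hq : q.Prime) (hqM : ¬ q ∣ M) : D.χ ((q * q : ℕ) : ℤ) = 1 := by
  have hc : IsCoprime (q : ℤ) (M₀ : ℤ) := by
    rw [Nat.isCoprime_iff_coprime]
    exact (Nat.Prime.coprime_iff_not_dvd hq).mpr fun h => hqM (h.trans hM)
  push_cast
  rw [D.chi_mul _ _ hc hc, D.chi_sq]

theorem Wt1.W2_bF (hq : q.Prime) (hqM : ¬ q ∣ M) (x y : ℤ)
    (h : ((q * q : ℕ) : ℤ) * x - M * y = 1) : W2 M q x y h (D.bF M q hM) = D.aF M q hM := by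
  have := D.alW_ratF (M * q * q) M (q * q) (mul_assoc M q q) x y h hM 1 (q * q) q q (one_mul _) rfl
  rw [W2, Wt1.bF, this, Wt1.aF, Wt1.a0F]
  congr 2
  have hq0 : (q : Kb) ≠ 0 := by exact_mod_cast NeZero.ne q
  rw [Wt1.alConst, D.chi_sq_nat M q hM hq hqM, Wt1.cq]
  push_cast
  field_simp

theorem Wt1.W2_aF (hq : q.Prime) (hqM : ¬ q ∣ M) (x y : ℤ)
    (h : ((q * q : ℕ) : ℤ) * x - M * y = 1) : W2 M q x y h (D.aF M q hM) = D.bF M q hM := by
  rw [← D.W2_bF M q hM hq hqM x y h, W2_W2]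

theorem Wt1.exists_W2 (hq : q.Prime) (hqM : ¬ q ∣ M) :
    ∃ w : FN (M * q * q) →+* FN (M * q * q),
      (∀ a : Kb, w (algebraMap Kb _ a) = algebraMap Kb _ a) ∧
      (∀ f, w (w f) = f) ∧
      (∀ u : FN M, w (heckeAlphaBar Kb (M * q) q (heckeAlphaBar Kb M q u))
        = heckeBetaBar Kb (M * q) q (heckeBetaBar Kb M q u)) ∧
      (∀ u : FN M, w (heckeAlphaBar Kb (M * q) q (heckeBetaBar Kb M q u))
        = heckeAlphaBar Kb (M * q) q (heckeBetaBar Kb M q u)) ∧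
      (∀ u : FN M, w (heckeBetaBar Kb (M * q) q (heckeBetaBar Kb M q u))
        = heckeAlphaBar Kb (M * q) q (heckeAlphaBar Kb M q u)) ∧
      (∀ s : FN (M * q) →+* FN (M * q),
        (∀ a : Kb, s (algebraMap Kb _ a) = algebraMap Kb _ a) →
        (∀ f : FN M, s (heckeAlphaBar Kb M q f) = heckeBetaBar Kb M q f) →
        (∀ f : FN M, s (heckeBetaBar Kb M q f) = heckeAlphaBar Kb M q f) →
        (∀ f : FN (M * q), w (heckeAlphaBar Kb (M * q) q f) = heckeBetaBar Kb (M * q) q (s f)) ∧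
        (∀ f : FN (M * q), w (heckeBetaBar Kb (M * q) q f) = heckeAlphaBar Kb (M * q) q (s f))) ∧
      w (D.aF M q hM) = D.bF M q hM ∧ w (D.bF M q hM) = D.aF M q hM := by
  have hcop : IsCoprime ((q * q : ℕ) : ℤ) (M : ℤ) := by
    apply Nat.isCoprime_iff_coprime.mpr
    have := (Nat.Prime.coprime_iff_not_dvd hq).mpr hqM
    exact Nat.Coprime.mul_left this this
  obtain ⟨a, b, hab⟩ := hcop
  have h : ((q * q : ℕ) : ℤ) * a - M * (-b) = 1 := by linear_combination hab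
  obtain ⟨s, hs0, hs1, hs2⟩ := exists_swap M q hq hqM
  have hA := W2_alpha M q a (-b) h s hs0 hs1 hs2 hq
  have hB := W2_beta M q a (-b) h s hs0 hs1 hs2 hq
  refine ⟨W2 M q a (-b) h, W2_algebraMap M q a (-b) h, W2_W2 M q a (-b) h, ?_, ?_, ?_, ?_,
    D.W2_aF M q hM hq hqM a (-b) h, D.W2_bF M q hM hq hqM a (-b) h⟩
  · intro u; rw [hA, hs1]
  · intro u
    rw [hA, hs2]
    apply Subtype.ext
    simp
  · intro u; rw [hB, hs2]
  · intro s' h0 h1 h2
    exact ⟨W2_alpha M q a (-b) h s' h0 h1 h2 hq, W2_beta M q a (-b) h s' h0 h1 h2 hq⟩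

end Fermat.Agent.S36
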