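/-
S36 / [THETA] (helper31): uniqueness of the expansion `σ₂` at the cusp `1/q` and of the
Atkin-Lehner involution `W_{q²}` (they are determined by their values on the `j(dτ)`), hence the
values of ANY such map on `a`, `b`.
-/
import Fermat.Agent.S36.Theta.Main

set_option autoImplicit false
set_option linter.unusedSectionVars false

open ModularCurve
open Fermat.Agent.S24 Fermat.Agent.RED.ES

noncomputable section

namespace Fermat.Agent.S36

section Gen

variable (M q : ℕ) [NeZero M] [NeZero q]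

theorem exists_dvd_mul_pow (hq : q.Prime) {d : ℕ} (hd : d ∣ M * q * q) :
    ∃ d₁ i : ℕ, d₁ ∣ M ∧ i ≤ 2 ∧ d = d₁ * q ^ i := by
  rw [mul_assoc, ← sq] at hd
  obtain ⟨d₁, d₂, h1, h2, rfl⟩ := (Nat.dvd_mul).1 hd
  obtain ⟨i, hi, rfl⟩ := (Nat.dvd_prime_pow hq).1 h2
  exact ⟨d₁, i, h1, hi, rfl⟩

theorem jBar_eq_alpha (N : ℕ) [NeZero N] (d : ℕ) [NeZero d] (hd : d ∣ N) (hd' : d ∣ N * q) :
    jBar (N * q) d hd' = heckeAlphaBar Kb N q (jBar N d hd) :=
  Subtype.ext (by rw [coe_heckeAlphaBar]; rfl)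

theorem jBar_eq_beta (N : ℕ) [NeZero N] (d : ℕ) [NeZero d] (hd : d ∣ N) (d' : ℕ) [NeZero d']
    (hdd : d' = d * q) (hd' : d' ∣ N * q) :
    jBar (N * q) d' hd' = heckeBetaBar Kb N q (jBar N d hd) := by
  subst hdd
  apply Subtype.ext
  rw [coe_heckeBetaBar, coe_jBar, coe_jBar, jqNModC, jqNModC, qExpand_qExpand]
  have key : ∀ (a b : ℕ) [NeZero a] [NeZero b], a = b →
      qExpand Kb a (jqModC Kb) = qExpand Kb b (jqModC Kb) := by
    intro a b _ _ h; subst h; rfl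
  exact key _ _ (Nat.mul_comm _ _)

/-- the three families `j(d τ)`, `j(d q τ)`, `j(d q² τ)` (`d ∣ M`) generate. -/
theorem ringHom_ext_three (hq : q.Prime) {E : Type*} [Field E] {s s' : FN (M * q * q) →+* E}
    (h0 : ∀ a : Kb, s (algebraMap Kb _ a) = s' (algebraMap Kb _ a))
    (h1 : ∀ u : FN M, s (heckeAlphaBar Kb (M * q) q (heckeAlphaBar Kb M q u))
      = s' (heckeAlphaBar Kb (M * q) q (heckeAlphaBar Kb M q u)))
    (h2 : ∀ u : FN M, s (heckeAlphaBar Kb (M * q) q (heckeBetaBar Kb M q u))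
      = s' (heckeAlphaBar Kb (M * q) q (heckeBetaBar Kb M q u)))
    (h3 : ∀ u : FN M, s (heckeBetaBar Kb (M * q) q (heckeBetaBar Kb M q u))
      = s' (heckeBetaBar Kb (M * q) q (heckeBetaBar Kb M q u))) : s = s' := by
  apply ringHom_ext_bar h0
  intro d _ hd
  obtain ⟨d₁, i, hd₁, hi, hdi⟩ := exists_dvd_mul_pow M q hq hd
  have : NeZero d₁ := ⟨by rintro rfl; rw [zero_mul] at hdi; exact NeZero.ne d hdi⟩
  interval_cases i
  · have e1 : d = d₁ := by simpa using hdi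
    subst e1
    rw [jBar_eq_alpha q (M * q) d (hd₁.mul_right q) hd, jBar_eq_alpha q M d hd₁ (hd₁.mul_right q)]
    exact h1 _
  · have e1 : d = d₁ * q := by simpa using hdi
    have hdq : d ∣ M * q := by rw [e1]; exact Nat.mul_dvd_mul_right hd₁ q
    rw [jBar_eq_alpha q (M * q) d hdq hd, jBar_eq_beta q M d₁ hd₁ d e1 hdq]
    exact h2 _
  · have e1 : d = d₁ * q * q := by rw [hdi]; ring
    have : NeZero (d₁ * q) := ⟨mul_ne_zero (NeZero.ne _) (NeZero.ne _)⟩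
    rw [jBar_eq_beta q (M * q) (d₁ * q) (Nat.mul_dvd_mul_right hd₁ q) d e1 hd,
      jBar_eq_beta q M d₁ hd₁ (d₁ * q) rfl (Nat.mul_dvd_mul_right hd₁ q)]
    exact h3 _

end Gen

variable {M₀ : ℕ} [NeZero M₀] (D : Wt1 M₀) (M q : ℕ) [NeZero M] [NeZero q] (hM : M₀ ∣ M)

/-- the values on `a`, `b` of ANY expansion at the cusp `1/q`. -/
theorem Wt1.sigma2_ab (hq : q.Prime) (hqM : ¬ q ∣ M) (ζ : Kbˣ) (hζ : IsPrimitiveRoot ζ q)
    (s : FN (M * q * q) →+* LaurentSeries Kb)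
    (hs0 : ∀ a : Kb, s (algebraMap Kb (FN (M * q * q)) a) = HahnSeries.C a)
    (hs1 : ∀ y : FN (M * q), s (heckeAlphaBar Kb (M * q) q y) = (y : LaurentSeries Kb))
    (hs2 : ∀ u : FN M, s (heckeBetaBar Kb (M * q) q (heckeBetaBar Kb M q u))
        = rot ζ (u : LaurentSeries Kb)) :
    s (D.bF M q hM) = D.ratS Kb 1 q ∧
      s (D.aF M q hM) = rot ζ (D.GL Kb) * qExpand Kb q (D.GLinv Kb) := by
  obtain ⟨s', h0, h1, h2, hb, ha⟩ := D.exists_sigma2 M q hM hq hqM ζ hζ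
  have : s = s' := by
    apply ringHom_ext_three M q hq
    · intro a; rw [hs0, h0]
    · intro u; rw [hs1, h1]
    · intro u; rw [hs1, h1]
    · intro u; rw [hs2, h2]
  rw [this]
  exact ⟨hb, ha⟩

/-- the values on `a`, `b` of ANY Atkin-Lehner involution `W_{q²}`. -/
theorem Wt1.W2_ab (hq : q.Prime) (hqM : ¬ q ∣ M) (w : FN (M * q * q) →+* FN (M * q * q))
    (hw0 : ∀ a : Kb, w (algebraMap Kb _ a) = algebraMap Kb _ a)
    (hw1 : ∀ u : FN M, w (heckeAlphaBar Kb (M * q) q (heckeAlphaBar Kb M q u))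
        = heckeBetaBar Kb (M * q) q (heckeBetaBar Kb M q u))
    (hw2 : ∀ u : FN M, w (heckeAlphaBar Kb (M * q) q (heckeBetaBar Kb M q u))
        = heckeAlphaBar Kb (M * q) q (heckeBetaBar Kb M q u))
    (hw3 : ∀ u : FN M, w (heckeBetaBar Kb (M * q) q (heckeBetaBar Kb M q u))
        = heckeAlphaBar Kb (M * q) q (heckeAlphaBar Kb M q u)) :
    w (D.aF M q hM) = D.bF M q hM ∧ w (D.bF M q hM) = D.aF M q hM := by
  obtain ⟨w', h0, -, h1, h2, h3, -, ha, hb⟩ := D.exists_W2 M q hM hq hqM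
  have : w = w' := by
    apply ringHom_ext_three M q hq
    · intro a; rw [hw0, h0]
    · intro u; rw [hw1, h1]
    · intro u; rw [hw2, h2]
    · intro u; rw [hw3, h3]
  rw [this]
  exact ⟨ha, hb⟩

end Fermat.Agent.S36
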