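/-
S36 / [THETA] (helper31): the functions `a₀ = q G(q²τ)/G(qτ)` (UNSIGNED), `b₀ = G(τ)/G(qτ)`,
`c₀ = q/(a₀ b₀)` in `F0 A (M q²)`, and their valuations / reductions at the three Gauss valuations
(`gvO`) attached to the expansions at `∞`, at the cusp `1/q`, and at `W_{q²} ∞`.
-/
import Fermat.Agent.S36.Theta.Uniq
import Fermat.Agent.S36.Theta.IntDesc
import Fermat.Agent.S36.Mod.GV
import Fermat.Agent.RED.ES.Formal

set_option autoImplicit false
set_option linter.unusedSectionVars false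

open ModularCurve
open Fermat.Agent.S24 Fermat.Agent.RED.ES Fermat.Agent.RED.Gauss

noncomputable section

namespace Fermat.Agent.S36

/-! ### generic tools for `gvO` -/

section Tools

variable {L : Type*} [Field L] {A : ValuationSubring L} {k : Type*} [Field k]
  {F : Type*} [Field F] {e : F →+* LaurentSeries L} {lam : L} {π : A →+* k}
  (hπ : IsResMap π) (h : IsDiscEmb A lam e)

theorem gv_val_eq_one_of_iota {y : F} {a : LaurentSeries A} (hy : e y = iota A a)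
    (ha : pi π a ≠ 0) : (gvO π hπ h).valuation y = 1 := by
  rw [gv_valuation_eq_one_iff]
  have hm : e y ∈ bigO π := by rw [hy]; exact iota_mem_bigO π a
  refine ⟨hm, ?_⟩
  have : (⟨e y, hm⟩ : bigO π) = ⟨iota A a, iota_mem_bigO π a⟩ := Subtype.ext hy
  rw [this, bigRed_iota]
  exact ha

theorem gv_val_lt_one_of_iota {y : F} {a : LaurentSeries A} (hy : e y = iota A a)
    (ha : pi π a = 0) : (gvO π hπ h).valuation y < 1 := by
  rw [gv_valuation_lt_one_iff]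
  have hm : e y ∈ bigO π := by rw [hy]; exact iota_mem_bigO π a
  refine ⟨hm, ?_⟩
  have : (⟨e y, hm⟩ : bigO π) = ⟨iota A a, iota_mem_bigO π a⟩ := Subtype.ext hy
  rw [this, bigRed_iota]
  exact ha

theorem gv_val_natCast_lt_one (q : ℕ) [CharP k q] : (gvO π hπ h).valuation (q : F) < 1 := by
  apply gv_val_lt_one_of_iota hπ h (a := (q : LaurentSeries A))
  · rw [map_natCast, map_natCast]
  · rw [map_natCast]
    have h2 : ((q : ℕ) : LaurentSeries k) = HahnSeries.C ((q : ℕ) : k) := (map_natCast _ q).symm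
    rw [h2, CharP.cast_eq_zero, map_zero]

end Tools

/-! ### series identities -/

section Series

variable {M₀ : ℕ} (D : Wt1 M₀)

theorem Wt1.ratS_ne_zero (R : Type*) [CommRing R] [Nontrivial R] (d e : ℕ) [NeZero d] [NeZero e] :
    D.ratS R d e ≠ 0 := by
  intro h
  have := D.ratS_mul_ratS R d e
  rw [h, zero_mul] at this
  exact zero_ne_one this

theorem Wt1.GL_ne_zero (R : Type*) [CommRing R] [Nontrivial R] : D.GL R ≠ 0 := by
  intro h
  have := D.GL_mul_GLinv R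
  rw [h, zero_mul] at this
  exact zero_ne_one this

variable {L : Type*} [Field L] {A : ValuationSubring L} {k : Type*} [Field k] (π : A →+* k)

theorem Wt1.iota_ratS (d e : ℕ) [NeZero d] [NeZero e] : iota A (D.ratS A d e) = D.ratS L d e :=
  D.coeffMap_ratS _ d e

theorem Wt1.pi_ratS (d e : ℕ) [NeZero d] [NeZero e] : pi π (D.ratS A d e) = D.ratS k d e :=
  D.coeffMap_ratS _ d e

variable (k) (q : ℕ) [NeZero q] [CharP k q]

theorem Wt1.qExpand_GL_char (hq : q.Prime) : qExpand k q (D.GL k) = D.GL k ^ q := by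
  have := ExpChar.prime (R := k) hq
  rw [pow_char_eq q, D.coeffMap_GL]

theorem Wt1.qExpand_GLinv_char (hq : q.Prime) : qExpand k q (D.GLinv k) = D.GLinv k ^ q := by
  have := ExpChar.prime (R := k) hq
  rw [pow_char_eq q, D.coeffMap_GLinv]

theorem Wt1.qExpand_sq_GL_char (hq : q.Prime) : qExpand k (q * q) (D.GL k) = D.GL k ^ (q * q) := by
  rw [← qExpand_qExpand, D.qExpand_GL_char k q hq, map_pow, D.qExpand_GL_char k q hq, ← pow_mul]

theorem Wt1.qExpand_sq_GLinv_char (hq : q.Prime) :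
    qExpand k (q * q) (D.GLinv k) = D.GLinv k ^ (q * q) := by
  rw [← qExpand_qExpand, D.qExpand_GLinv_char k q hq, map_pow, D.qExpand_GLinv_char k q hq,
    ← pow_mul]

theorem Wt1.ratS_one_q_char (hq : q.Prime) : D.ratS k 1 q = D.GL k * D.GLinv k ^ q := by
  rw [Wt1.ratS, qExpand_one_apply, D.qExpand_GLinv_char k q hq]

theorem Wt1.ratS_q_one_char (hq : q.Prime) : D.ratS k q 1 = D.GL k ^ q * D.GLinv k := by
  rw [Wt1.ratS, qExpand_one_apply, D.qExpand_GL_char k q hq]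

theorem Wt1.ratS_q_sq_char (hq : q.Prime) :
    D.ratS k q (q * q) = D.GL k ^ q * D.GLinv k ^ (q * q) := by
  rw [Wt1.ratS, D.qExpand_GL_char k q hq, D.qExpand_sq_GLinv_char k q hq]

theorem Wt1.GLinv_eq_inv : D.GLinv k = (D.GL k)⁻¹ :=
  eq_inv_of_mul_eq_one_right (D.GL_mul_GLinv k)

/-- the identity behind `(T3)`: `G^{2q - 1 - q²} = (G^{1-q})^{q-1}`. -/
theorem Wt1.t3_char (hq : q.Prime) :
    D.ratS k q (q * q) * D.ratS k q 1 = D.ratS k 1 q ^ (q - 1) := by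
  rw [D.ratS_q_sq_char k q hq, D.ratS_q_one_char k q hq, D.ratS_one_q_char k q hq,
    D.GLinv_eq_inv k]
  have hg := D.GL_ne_zero k
  obtain ⟨r, rfl⟩ : ∃ r, q = r + 1 := ⟨q - 1, (Nat.succ_pred_eq_of_pos hq.pos).symm⟩
  rw [Nat.add_sub_cancel]
  generalize D.GL k = g at hg
  simp only [inv_pow]
  rw [mul_pow, inv_pow, ← pow_mul]
  have h1 : g ^ ((r + 1) * (r + 1)) ≠ 0 := pow_ne_zero _ hg
  have h2 : g ^ ((r + 1) * r) ≠ 0 := pow_ne_zero _ hg
  rw [← div_eq_mul_inv, ← div_eq_mul_inv, ← div_eq_mul_inv, div_mul_div_comm,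
    div_eq_div_iff (mul_ne_zero h1 hg) h2]
  ring

/-- `χ ^ (q - 1) = 1` in characteristic `q` for a sign `χ`. -/
theorem sign_pow_char (hq : q.Prime) {c : ℤ} (hc : c * c = 1) : ((c : ℤ) : k) ^ (q - 1) = 1 := by
  rcases Int.isUnit_iff.1 (IsUnit.of_mul_eq_one _ hc) with rfl | rfl
  · simp
  · rcases hq.eq_two_or_odd' with rfl | hodd
    · have : CharP k 2 := ‹_›
      simp [CharTwo.neg_eq]
    · have : Even (q - 1) := by
        obtain ⟨m, hm⟩ := hodd
        exact ⟨m, by omega⟩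
      simp [this.neg_one_pow]

end Series

/-! ### the elements of `F0` -/

section F0

variable (A : ValuationSubring Kb) {M₀ : ℕ} [NeZero M₀] (D : Wt1 M₀)

theorem Wt1.cK_ratS (d e : ℕ) [NeZero d] [NeZero e] :
    cK A (D.ratS (KK A) d e) = D.ratS Kb d e := D.coeffMap_ratS _ d e

section Lvl

variable (N : ℕ) [NeZero N] (d e : ℕ) [NeZero d] [NeZero e]

theorem Wt1.ratS_mem_F0 (hd : M₀ * d ∣ N) (he : M₀ * e ∣ N) :
    D.ratS (KK A) d e ∈ laurentBaseChange (KK A) (modularFunctionFieldFull N) := by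
  obtain ⟨y, hy⟩ := exists_embF0_eq A N (D.ratF N d e hd he) (by
    intro n
    rw [D.coe_ratF, ← D.cK_ratS A]
    exact algebraMap_KK_mem _)
  have h1 : cK A (y : LaurentSeries (KK A)) = cK A (D.ratS (KK A) d e) := by
    rw [← coe_embF0, hy, D.coe_ratF, D.cK_ratS]
  rw [← (cK A).injective h1]
  exact y.2

/-- `G(dτ)/G(eτ)` over `KK A`. -/
def Wt1.rat0 (hd : M₀ * d ∣ N) (he : M₀ * e ∣ N) : F0 A N :=
  ⟨D.ratS (KK A) d e, D.ratS_mem_F0 A N d e hd he⟩

theorem Wt1.embF0_rat0 (hd : M₀ * d ∣ N) (he : M₀ * e ∣ N) :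
    embF0 A N (D.rat0 A N d e hd he) = D.ratF N d e hd he :=
  Subtype.ext (D.cK_ratS A d e)

theorem Wt1.rat0_mul_rat0 (hd : M₀ * d ∣ N) (he : M₀ * e ∣ N) :
    D.rat0 A N d e hd he * D.rat0 A N e d he hd = 1 :=
  Subtype.ext (D.ratS_mul_ratS (KK A) d e)

theorem Wt1.isIntegral_rat0 (hd : M₀ * d ∣ N) (he : M₀ * e ∣ N) (j : F0 A N)
    (hj : embF0 A N j = jF N) : IsIntegral (Algebra.adjoin (KK A) {j}) (D.rat0 A N d e hd he) := by
  apply isIntegral_of_embF0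
  rw [hj, D.embF0_rat0]
  exact D.isIntegral_ratF N d e hd he

end Lvl

variable (M q : ℕ) [NeZero M] [NeZero q] (hM : M₀ ∣ M)

/-- `b₀ = G(τ)/G(qτ)` -/
def Wt1.b0 : F0 A (M * q * q) :=
  D.rat0 A (M * q * q) 1 q (lvl_dvd hM (one_dvd _)) (lvl_dvd hM (dvd_mul_right q q))

/-- `1/b₀` -/
def Wt1.b0i : F0 A (M * q * q) :=
  D.rat0 A (M * q * q) q 1 (lvl_dvd hM (dvd_mul_right q q)) (lvl_dvd hM (one_dvd _))

/-- `G(q²τ)/G(qτ)` -/
def Wt1.a00 : F0 A (M * q * q) :=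
  D.rat0 A (M * q * q) (q * q) q (lvl_dvd hM dvd_rfl) (lvl_dvd hM (dvd_mul_right q q))

/-- `G(qτ)/G(q²τ)` -/
def Wt1.a00i : F0 A (M * q * q) :=
  D.rat0 A (M * q * q) q (q * q) (lvl_dvd hM (dvd_mul_right q q)) (lvl_dvd hM dvd_rfl)

/-- `a₀ = q G(q²τ)/G(qτ)` (unsigned) -/
def Wt1.a0 : F0 A (M * q * q) := (q : F0 A (M * q * q)) * D.a00 A M q hM

/-- `c₀ = q / (a₀ b₀) = G(qτ)² / (G(τ) G(q²τ))` -/
def Wt1.c0 : F0 A (M * q * q) := D.a00i A M q hM * D.b0i A M q hM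

theorem Wt1.b0_mul_b0i : D.b0 A M q hM * D.b0i A M q hM = 1 := D.rat0_mul_rat0 A _ _ _ _ _

theorem Wt1.a00_mul_a00i : D.a00 A M q hM * D.a00i A M q hM = 1 := D.rat0_mul_rat0 A _ _ _ _ _

theorem natCast_F0_ne_zero : (q : F0 A (M * q * q)) ≠ 0 := Nat.cast_ne_zero.2 (NeZero.ne q)

theorem Wt1.b0_ne_zero : D.b0 A M q hM ≠ 0 := left_ne_zero_of_mul_eq_one (D.b0_mul_b0i A M q hM)

theorem Wt1.a00_ne_zero : D.a00 A M q hM ≠ 0 :=
  left_ne_zero_of_mul_eq_one (D.a00_mul_a00i A M q hM)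

theorem Wt1.a0_ne_zero : D.a0 A M q hM ≠ 0 :=
  mul_ne_zero (natCast_F0_ne_zero A M q) (D.a00_ne_zero A M q hM)

theorem Wt1.a0_mul_b0_mul_c0 :
    D.a0 A M q hM * D.b0 A M q hM * D.c0 A M q hM = (q : F0 A (M * q * q)) := by
  have h1 := D.b0_mul_b0i A M q hM
  have h2 := D.a00_mul_a00i A M q hM
  rw [Wt1.a0, Wt1.c0]
  linear_combination (q : F0 A (M * q * q)) * (D.a00 A M q hM * D.a00i A M q hM) * h1
    + (q : F0 A (M * q * q)) * h2

theorem Wt1.div_eq_c0 :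
    (q : F0 A (M * q * q)) / (D.a0 A M q hM * D.b0 A M q hM) = D.c0 A M q hM := by
  rw [div_eq_iff (mul_ne_zero (D.a0_ne_zero A M q hM) (D.b0_ne_zero A M q hM)),
    ← D.a0_mul_b0_mul_c0 A M q hM]
  ring

theorem Wt1.div_a0 : (q : F0 A (M * q * q)) ^ 1 / D.a0 A M q hM = D.a00i A M q hM := by
  rw [pow_one, div_eq_iff (D.a0_ne_zero A M q hM), Wt1.a0]
  linear_combination -(q : F0 A (M * q * q)) * D.a00_mul_a00i A M q hM

theorem Wt1.div_b0 : (q : F0 A (M * q * q)) ^ 1 / D.b0 A M q hM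
    = (q : F0 A (M * q * q)) * D.b0i A M q hM := by
  rw [pow_one, div_eq_iff (D.b0_ne_zero A M q hM)]
  linear_combination -(q : F0 A (M * q * q)) * D.b0_mul_b0i A M q hM

theorem Wt1.embF0_b0 : embF0 A _ (D.b0 A M q hM) = D.bF M q hM := D.embF0_rat0 A _ _ _ _ _

theorem Wt1.embF0_a00 : embF0 A _ (D.a00 A M q hM) = D.a0F M q hM := D.embF0_rat0 A _ _ _ _ _

/-- `a₀ = χ(q) a`. -/
theorem Wt1.embF0_a0 : embF0 A _ (D.a0 A M q hM)
    = algebraMap Kb _ ((D.χ (q : ℤ) : ℤ) : Kb) * D.aF M q hM := by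
  rw [Wt1.a0, map_mul, map_natCast, D.embF0_a00, Wt1.aF, Wt1.cq, ← mul_assoc, ← map_mul,
    ← mul_assoc, D.chiK_sq, one_mul, map_natCast]

/-! integrality on the generic fibre -/

variable (j : F0 A (M * q * q)) (hj : embF0 A _ j = jF (M * q * q))

include hj

theorem Wt1.isIntegral_b0 : IsIntegral (Algebra.adjoin (KK A) {j}) (D.b0 A M q hM) :=
  D.isIntegral_rat0 A _ _ _ _ _ j hj

theorem Wt1.isIntegral_b0i : IsIntegral (Algebra.adjoin (KK A) {j}) (D.b0i A M q hM) :=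
  D.isIntegral_rat0 A _ _ _ _ _ j hj

theorem Wt1.isIntegral_a00 : IsIntegral (Algebra.adjoin (KK A) {j}) (D.a00 A M q hM) :=
  D.isIntegral_rat0 A _ _ _ _ _ j hj

theorem Wt1.isIntegral_a00i : IsIntegral (Algebra.adjoin (KK A) {j}) (D.a00i A M q hM) :=
  D.isIntegral_rat0 A _ _ _ _ _ j hj

theorem Wt1.isIntegral_a0 : IsIntegral (Algebra.adjoin (KK A) {j}) (D.a0 A M q hM) :=
  isIntegral_mul_abs j (by
    have := isIntegral_const_abs j ((q : ℕ) : KK A)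
    rwa [map_natCast] at this) (D.isIntegral_a00 A M q hM j hj)

theorem Wt1.isIntegral_c0 : IsIntegral (Algebra.adjoin (KK A) {j}) (D.c0 A M q hM) :=
  isIntegral_mul_abs j (D.isIntegral_a00i A M q hM j hj) (D.isIntegral_b0i A M q hM j hj)

theorem Wt1.isIntegral_q_mul_b0i :
    IsIntegral (Algebra.adjoin (KK A) {j}) ((q : F0 A (M * q * q)) * D.b0i A M q hM) :=
  isIntegral_mul_abs j (by
    have := isIntegral_const_abs j ((q : ℕ) : KK A)
    rwa [map_natCast] at this) (D.isIntegral_b0i A M q hM j hj)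

end F0

/-! ### valuations -/

section Vals

variable {A : ValuationSubring Kb} {k : Type*} [Field k] {π : A →+* k} (hπ : IsResMap π)
  {M₀ : ℕ} [NeZero M₀] (D : Wt1 M₀) (M q : ℕ) [NeZero M] [NeZero q] (hM : M₀ ∣ M) [CharP k q]
  {lam : Kb} {e : F0 A (M * q * q) →+* LaurentSeries Kb} (h : IsDiscEmb A lam e)

/-- the sign `χ(q)` as a series over any ring -/
def Wt1.chiS (R : Type*) [CommRing R] (q : ℕ) : LaurentSeries R := ((D.χ (q : ℤ) : ℤ) : LaurentSeries R)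

theorem Wt1.chiS_mul_self (R : Type*) [CommRing R] : D.chiS R q * D.chiS R q = 1 := by
  rw [Wt1.chiS, ← Int.cast_mul, D.chi_sq, Int.cast_one]

theorem Wt1.chiS_ne_zero (R : Type*) [CommRing R] [Nontrivial R] : D.chiS R q ≠ 0 :=
  left_ne_zero_of_mul_eq_one (D.chiS_mul_self q R)

theorem Wt1.iota_chiS : iota A (D.chiS A q) = D.chiS Kb q := map_intCast _ _

theorem Wt1.pi_chiS : pi π (D.chiS A q) = D.chiS k q := map_intCast _ _

theorem Wt1.chiS_pow_char (hq : q.Prime) : D.chiS k q ^ (q - 1) = 1 := by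
  have h1 : D.chiS k q = HahnSeries.C ((D.χ (q : ℤ) : ℤ) : k) := (map_intCast _ _).symm
  rw [h1, ← map_pow, sign_pow_char k q hq (D.chi_sq _), map_one]

theorem natCast_series_char : ((q : ℕ) : LaurentSeries k) = 0 := by
  have h2 : ((q : ℕ) : LaurentSeries k) = HahnSeries.C ((q : ℕ) : k) := (map_natCast _ q).symm
  rw [h2, CharP.cast_eq_zero, map_zero]

theorem natCast_series_ne_zero : ((q : ℕ) : LaurentSeries Kb) ≠ 0 := by
  have h2 : ((q : ℕ) : LaurentSeries Kb) = HahnSeries.C ((q : ℕ) : Kb) := (map_natCast _ q).symm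
  rw [h2]
  exact HahnSeries.C_ne_zero (Nat.cast_ne_zero.2 (NeZero.ne q))

/-! #### the expansion at `∞` -/

section E0

variable (he : ∀ y, e y = (embF0 A _ y : LaurentSeries Kb))

include he

theorem Wt1.e0_rat0 (d d' : ℕ) [NeZero d] [NeZero d'] (hd : M₀ * d ∣ M * q * q)
    (hd' : M₀ * d' ∣ M * q * q) :
    e (D.rat0 A (M * q * q) d d' hd hd') = iota A (D.ratS A d d') := by
  rw [he, D.embF0_rat0, D.coe_ratF, D.iota_ratS]

theorem Wt1.val0_rat0 (d d' : ℕ) [NeZero d] [NeZero d'] (hd : M₀ * d ∣ M * q * q)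
    (hd' : M₀ * d' ∣ M * q * q) :
    (gvO π hπ h).valuation (D.rat0 A (M * q * q) d d' hd hd') = 1 :=
  gv_val_eq_one_of_iota hπ h (D.e0_rat0 M q he d d' hd hd')
    (by rw [D.pi_ratS]; exact D.ratS_ne_zero k d d')

theorem Wt1.val0_b0 : (gvO π hπ h).valuation (D.b0 A M q hM) = 1 := D.val0_rat0 hπ M q h he _ _ _ _

theorem Wt1.val0_a0 :
    (gvO π hπ h).valuation (D.a0 A M q hM) = (gvO π hπ h).valuation (q : F0 A (M * q * q)) := by
  rw [Wt1.a0, map_mul, Wt1.a00, D.val0_rat0 hπ M q h he, mul_one]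

theorem Wt1.val0_c0 : (gvO π hπ h).valuation (D.c0 A M q hM) = 1 := by
  rw [Wt1.c0, map_mul, Wt1.a00i, Wt1.b0i, D.val0_rat0 hπ M q h he, D.val0_rat0 hπ M q h he, mul_one]

/-- **(T3)** -/
theorem Wt1.t3 (hq : q.Prime) :
    (gvO π hπ h).valuation ((q : F0 A (M * q * q)) / (D.a0 A M q hM * D.b0 A M q hM)
      - D.b0 A M q hM ^ (q - 1)) < 1 := by
  rw [D.div_eq_c0]
  apply gv_val_lt_one_of_iota hπ h
    (a := D.ratS A q (q * q) * D.ratS A q 1 - D.ratS A 1 q ^ (q - 1))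
  · rw [map_sub, map_sub, map_pow, map_pow, Wt1.c0, map_mul, map_mul, Wt1.a00i, Wt1.b0i, Wt1.b0,
      D.e0_rat0 M q he, D.e0_rat0 M q he, D.e0_rat0 M q he]
  · rw [map_sub, map_mul, map_pow, D.pi_ratS, D.pi_ratS, D.pi_ratS, D.t3_char k q hq, sub_self]

end E0

/-! #### the expansion at `W_{q²} ∞` -/

section E2

variable (hq : q.Prime) (hqM : ¬ q ∣ M) (w : FN (M * q * q) →+* FN (M * q * q))
    (hw0 : ∀ a : Kb, w (algebraMap Kb _ a) = algebraMap Kb _ a)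
    (hw1 : ∀ u : FN M, w (heckeAlphaBar Kb (M * q) q (heckeAlphaBar Kb M q u))
        = heckeBetaBar Kb (M * q) q (heckeBetaBar Kb M q u))
    (hw2 : ∀ u : FN M, w (heckeAlphaBar Kb (M * q) q (heckeBetaBar Kb M q u))
        = heckeAlphaBar Kb (M * q) q (heckeBetaBar Kb M q u))
    (hw3 : ∀ u : FN M, w (heckeBetaBar Kb (M * q) q (heckeBetaBar Kb M q u))
        = heckeAlphaBar Kb (M * q) q (heckeAlphaBar Kb M q u))
    (he : ∀ y, e y = (w (embF0 A _ y) : LaurentSeries Kb))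

include hq hqM hw0 hw1 hw2 hw3 he

theorem Wt1.e2_a0 : e (D.a0 A M q hM) = iota A (D.chiS A q * D.ratS A 1 q) := by
  rw [he, D.embF0_a0, map_mul, hw0, (D.W2_ab M q hM hq hqM w hw0 hw1 hw2 hw3).1, map_mul,
    D.iota_chiS, D.iota_ratS, map_intCast]
  rfl

theorem Wt1.e2_b0 :
    e (D.b0 A M q hM) = iota A (D.chiS A q * (q : LaurentSeries A) * D.ratS A (q * q) q) := by
  rw [he, D.embF0_b0, (D.W2_ab M q hM hq hqM w hw0 hw1 hw2 hw3).2, D.coe_aF, map_mul, map_mul,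
    D.iota_chiS, D.iota_ratS, map_natCast, Wt1.cq, map_mul, map_intCast, map_natCast]
  rfl

theorem Wt1.e2_c0 : e (D.c0 A M q hM) = iota A (D.ratS A q (q * q) * D.ratS A q 1) := by
  have h1 := congrArg e (D.a0_mul_b0_mul_c0 A M q hM)
  rw [map_mul, map_mul, D.e2_a0 M q hM hq hqM w hw0 hw1 hw2 hw3 he,
    D.e2_b0 M q hM hq hqM w hw0 hw1 hw2 hw3 he, map_natCast] at h1
  simp only [map_mul, D.iota_chiS, D.iota_ratS, map_natCast] at h1 ⊢
  have h2 := D.chiS_mul_self q Kb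
  have h3 := D.ratS_mul_ratS Kb 1 q
  have h4 := D.ratS_mul_ratS Kb (q * q) q
  apply mul_left_cancel₀ (natCast_series_ne_zero q)
  set X := e (D.c0 A M q hM)
  linear_combination (D.ratS Kb q (q * q) * D.ratS Kb q 1) * h1
    - (q : LaurentSeries Kb) * X * D.ratS Kb 1 q * D.ratS Kb q 1 * D.ratS Kb (q * q) q
        * D.ratS Kb q (q * q) * h2
    - (q : LaurentSeries Kb) * X * D.ratS Kb (q * q) q * D.ratS Kb q (q * q) * h3
    - (q : LaurentSeries Kb) * X * h4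

theorem Wt1.val2_a0 : (gvO π hπ h).valuation (D.a0 A M q hM) = 1 :=
  gv_val_eq_one_of_iota hπ h (D.e2_a0 M q hM hq hqM w hw0 hw1 hw2 hw3 he)
    (by rw [map_mul, D.pi_chiS, D.pi_ratS]
        exact mul_ne_zero (D.chiS_ne_zero q k) (D.ratS_ne_zero k 1 q))

theorem Wt1.val2_c0 : (gvO π hπ h).valuation (D.c0 A M q hM) = 1 :=
  gv_val_eq_one_of_iota hπ h (D.e2_c0 M q hM hq hqM w hw0 hw1 hw2 hw3 he)
    (by rw [map_mul, D.pi_ratS, D.pi_ratS]
        exact mul_ne_zero (D.ratS_ne_zero k _ _) (D.ratS_ne_zero k _ _))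

theorem Wt1.val2_b0 :
    (gvO π hπ h).valuation (D.b0 A M q hM) = (gvO π hπ h).valuation (q : F0 A (M * q * q)) := by
  have h1 := congrArg (gvO π hπ h).valuation (D.a0_mul_b0_mul_c0 A M q hM)
  rwa [map_mul, map_mul, D.val2_a0 hπ M q hM h hq hqM w hw0 hw1 hw2 hw3 he,
    D.val2_c0 hπ M q hM h hq hqM w hw0 hw1 hw2 hw3 he, one_mul, mul_one] at h1

/-- **(T3')** -/
theorem Wt1.t3' :
    (gvO π hπ h).valuation ((q : F0 A (M * q * q)) / (D.a0 A M q hM * D.b0 A M q hM)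
      - D.a0 A M q hM ^ (q - 1)) < 1 := by
  rw [D.div_eq_c0]
  apply gv_val_lt_one_of_iota hπ h
    (a := D.ratS A q (q * q) * D.ratS A q 1 - (D.chiS A q * D.ratS A 1 q) ^ (q - 1))
  · rw [map_sub, map_sub, map_pow, map_pow, D.e2_c0 M q hM hq hqM w hw0 hw1 hw2 hw3 he,
      D.e2_a0 M q hM hq hqM w hw0 hw1 hw2 hw3 he]
  · rw [map_sub, map_mul, map_pow, map_mul, D.pi_ratS, D.pi_ratS, D.pi_ratS, D.pi_chiS, mul_pow,
      D.chiS_pow_char q hq, one_mul, D.t3_char k q hq, sub_self]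

end E2

/-! #### the expansion at the cusp `1/q` -/

section E1

theorem rot_eq_rotR (ζ : Kbˣ) (f : LaurentSeries Kb) : rot ζ f = rotR ζ f := rfl

/-- a root of unity as a unit of `A`. -/
theorem exists_unit_of_pow_eq_one (A : ValuationSubring Kb) (ζ : Kbˣ) {n : ℕ} (hn : n ≠ 0)
    (hζ : ζ ^ n = 1) : ∃ z : Aˣ, Units.map (A.subtype : A →* Kb) z = ζ := by
  have h1 : A.valuation (ζ : Kb) = 1 := by
    have h2 : A.valuation (ζ : Kb) ^ n = 1 := by
      rw [← map_pow, ← Units.val_pow_eq_pow_val, hζ, Units.val_one, map_one]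
    exact (pow_eq_one_iff.1 h2).resolve_right hn
  refine ⟨A.unitGroupMulEquiv ⟨ζ, h1⟩, ?_⟩
  ext
  rfl

variable (hq : q.Prime) (hqM : ¬ q ∣ M) (ζ : Kbˣ) (hζ : IsPrimitiveRoot ζ q)
    (s : FN (M * q * q) →+* LaurentSeries Kb)
    (hs0 : ∀ a : Kb, s (algebraMap Kb (FN (M * q * q)) a) = HahnSeries.C a)
    (hs1 : ∀ y : FN (M * q), s (heckeAlphaBar Kb (M * q) q y) = (y : LaurentSeries Kb))
    (hs2 : ∀ u : FN M, s (heckeBetaBar Kb (M * q) q (heckeBetaBar Kb M q u))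
        = rot ζ (u : LaurentSeries Kb))
    (he : ∀ y, e y = s (embF0 A _ y))

include hq hqM hζ hs0 hs1 hs2 he

theorem Wt1.e1_b0 : e (D.b0 A M q hM) = iota A (D.ratS A 1 q) := by
  rw [he, D.embF0_b0, (D.sigma2_ab M q hM hq hqM ζ hζ s hs0 hs1 hs2).1, D.iota_ratS]

omit [CharP k q] in
/-- `e₁ a₀ = χ(q) G(ζ T) / G(T^q)`, which reduces to `χ(q) G(T) / G(T^q)`. -/
theorem Wt1.e1_a0 [CharP k q] : ∃ X : LaurentSeries A, e (D.a0 A M q hM) = iota A X ∧
    pi π X = D.chiS k q * D.ratS k 1 q := by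
  obtain ⟨z, hz⟩ := exists_unit_of_pow_eq_one A ζ hq.ne_zero hζ.pow_eq_one
  refine ⟨D.chiS A q * (rotR z (D.GL A) * qExpand A q (D.GLinv A)), ?_, ?_⟩
  · rw [he, D.embF0_a0, map_mul, hs0, (D.sigma2_ab M q hM hq hqM ζ hζ s hs0 hs1 hs2).2, map_mul,
      map_mul, D.iota_chiS, map_intCast, rot_eq_rotR]
    congr 1
    congr 1
    · show _ = coeffMap A.subtype (rotR z (D.GL A))
      rw [coeffMap_rotR, D.coeffMap_GL]
      exact congrArg (fun u => rotR u (D.GL Kb)) hz.symm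
    · show _ = coeffMap A.subtype (qExpand A q (D.GLinv A))
      rw [coeffMap_qExpand, D.coeffMap_GLinv]
  · have hz1 : Units.map (π : A →* k) z = 1 := by
      have := ExpChar.prime (R := k) hq
      have h1 : z ^ q = 1 := by
        apply Units.map_injective (f := (A.subtype : A →* Kb)) Subtype.val_injective
        rw [map_pow, hz, hζ.pow_eq_one, map_one]
      have h2 : (π (z : A)) ^ (q ^ 1 * 1) = 1 := by
        rw [pow_one, mul_one, ← map_pow, ← Units.val_pow_eq_pow_val, h1, Units.val_one, map_one]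
      rw [ExpChar.pow_prime_pow_mul_eq_one_iff, pow_one] at h2
      ext
      exact h2
    rw [map_mul, map_mul, D.pi_chiS]
    congr 1
    have e1 : pi π (rotR z (D.GL A)) = D.GL k := by
      show coeffMap π (rotR z (D.GL A)) = _
      rw [coeffMap_rotR, D.coeffMap_GL, hz1, rotR_one_left]
    have e2 : pi π (qExpand A q (D.GLinv A)) = qExpand k q (D.GLinv k) := by
      show coeffMap π (qExpand A q (D.GLinv A)) = _
      rw [coeffMap_qExpand, D.coeffMap_GLinv]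
    rw [e1, e2, Wt1.ratS, qExpand_one_apply]

theorem Wt1.val1_b0 : (gvO π hπ h).valuation (D.b0 A M q hM) = 1 :=
  gv_val_eq_one_of_iota hπ h (D.e1_b0 M q hM hq hqM ζ hζ s hs0 hs1 hs2 he)
    (by rw [D.pi_ratS]; exact D.ratS_ne_zero k 1 q)

theorem Wt1.val1_a0 : (gvO π hπ h).valuation (D.a0 A M q hM) = 1 := by
  obtain ⟨X, h1, h2⟩ := D.e1_a0 (π := π) M q hM hq hqM ζ hζ s hs0 hs1 hs2 he
  exact gv_val_eq_one_of_iota hπ h h1
    (by rw [h2]; exact mul_ne_zero (D.chiS_ne_zero q k) (D.ratS_ne_zero k 1 q))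

theorem Wt1.val1_c0 :
    (gvO π hπ h).valuation (D.c0 A M q hM) = (gvO π hπ h).valuation (q : F0 A (M * q * q)) := by
  have h1 := congrArg (gvO π hπ h).valuation (D.a0_mul_b0_mul_c0 A M q hM)
  rwa [map_mul, map_mul, D.val1_a0 hπ M q hM h hq hqM ζ hζ s hs0 hs1 hs2 he,
    D.val1_b0 hπ M q hM h hq hqM ζ hζ s hs0 hs1 hs2 he, one_mul, one_mul] at h1

/-- the reduction of `a₀ b₀` along the middle component: `χ(q) (G / G^q)²`. -/
theorem Wt1.e1_a0_mul_b0 : ∃ X : LaurentSeries A, e (D.a0 A M q hM * D.b0 A M q hM) = iota A X ∧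
    pi π X = D.chiS k q * D.ratS k 1 q ^ 2 := by
  obtain ⟨X, h1, h2⟩ := D.e1_a0 (π := π) M q hM hq hqM ζ hζ s hs0 hs1 hs2 he
  refine ⟨X * D.ratS A 1 q, ?_, ?_⟩
  · rw [map_mul, map_mul, h1, D.e1_b0 M q hM hq hqM ζ hζ s hs0 hs1 hs2 he]
  · rw [map_mul, h2, D.pi_ratS]; ring

end E1

end Vals

end Fermat.Agent.S36
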