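/-
S36 / [THETA] (helper31): the fields of `GeomDatum` about `ϖ 0 = a`, `ϖ 2 = b` (and `ϖ 1 = q/(ab)` for
`q = 2`) in the context `C : Ctx` of `Mod/Objects.lean`.
-/
import Fermat.Agent.S36.Theta.Val
import Fermat.Agent.S36.Theta.IntClear
import Fermat.Agent.S36.Theta.Inst
import Fermat.Agent.S36.Mod.Objects
import Fermat.Agent.S36.Abs.Datum
import Fermat.Agent.S36.Abs.ValCrit

set_option autoImplicit false
set_option linter.unusedSectionVars false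

open ModularCurve
open Fermat.Agent.S24 Fermat.Agent.RED.Gauss

noncomputable section

namespace Fermat.Agent.S36

namespace Ctx

variable (C : Ctx)

theorem e3_zero (y : C.F) : C.e3 0 y = (embF0 C.A _ y : LaurentSeries Kb) := rfl

theorem e3_one (y : C.F) : C.e3 1 y = C.sig2 (embF0 C.A _ y) := rfl

theorem e3_two (y : C.F) : C.e3 2 y = (C.W2 (embF0 C.A _ y) : LaurentSeries Kb) := rfl

theorem embF0_jzero : embF0 C.A _ (C.j 0) = jF (C.M * C.q * C.q) := by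
  apply Subtype.ext
  rw [coe_embF0]
  show cK C.A (coeffEmb C.K (qExpand ℚ 1 jq)) = coeffEmb Kb (qExpand ℚ 1 jq)
  ext n
  show algebraMap C.K Kb (algebraMap ℚ C.K _) = algebraMap ℚ Kb _
  simp

/-! ### the specifications of `sig2`, `W2` -/

theorem sig2_cst (a : Kb) :
    C.sig2 (algebraMap Kb (FN (C.M * C.q * C.q)) a) = HahnSeries.C a :=
  (exists_sigma2 C.M C.q C.hq C.hqM C.ζ C.hζ).choose_spec.1 a

theorem sig2_alpha (y : FN (C.M * C.q)) :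
    C.sig2 (heckeAlphaBar Kb (C.M * C.q) C.q y) = (y : LaurentSeries Kb) :=
  (exists_sigma2 C.M C.q C.hq C.hqM C.ζ C.hζ).choose_spec.2.1 y

theorem sig2_beta_beta (u : FN C.M) :
    C.sig2 (heckeBetaBar Kb (C.M * C.q) C.q (heckeBetaBar Kb C.M C.q u))
      = rot C.ζ (u : LaurentSeries Kb) :=
  (exists_sigma2 C.M C.q C.hq C.hqM C.ζ C.hζ).choose_spec.2.2 u

theorem W2_const (a : Kb) : C.W2 (algebraMap Kb _ a) = algebraMap Kb _ a :=
  (exists_W2 C.M C.q C.hq C.hqM).choose_spec.1 a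

theorem W2_alpha_alpha (u : FN C.M) :
    C.W2 (heckeAlphaBar Kb (C.M * C.q) C.q (heckeAlphaBar Kb C.M C.q u))
      = heckeBetaBar Kb (C.M * C.q) C.q (heckeBetaBar Kb C.M C.q u) :=
  (exists_W2 C.M C.q C.hq C.hqM).choose_spec.2.2.1 u

theorem W2_alpha_beta (u : FN C.M) :
    C.W2 (heckeAlphaBar Kb (C.M * C.q) C.q (heckeBetaBar Kb C.M C.q u))
      = heckeAlphaBar Kb (C.M * C.q) C.q (heckeBetaBar Kb C.M C.q u) :=
  (exists_W2 C.M C.q C.hq C.hqM).choose_spec.2.2.2.1 u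

theorem W2_beta_beta (u : FN C.M) :
    C.W2 (heckeBetaBar Kb (C.M * C.q) C.q (heckeBetaBar Kb C.M C.q u))
      = heckeAlphaBar Kb (C.M * C.q) C.q (heckeAlphaBar Kb C.M C.q u) :=
  (exists_W2 C.M C.q C.hq C.hqM).choose_spec.2.2.2.2.1 u

/-! ### valuations, for a general weight one datum -/

theorem val_q_lt (i : Fin 3) : (C.O3 i).valuation (C.q : C.F) < 1 :=
  gv_val_natCast_lt_one C.hπ (C.disc3 i) C.q

section Gen

variable {M₀ : ℕ} [NeZero M₀] (D : Wt1 M₀) (hM : M₀ ∣ C.M)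

theorem val0_a0 : (C.O3 0).valuation (D.a0 C.A C.M C.q hM) = (C.O3 0).valuation (C.q : C.F) :=
  D.val0_a0 C.hπ C.M C.q hM (C.disc3 0) C.e3_zero

theorem val0_b0 : (C.O3 0).valuation (D.b0 C.A C.M C.q hM) = 1 :=
  D.val0_b0 C.hπ C.M C.q hM (C.disc3 0) C.e3_zero

theorem val0_c0 : (C.O3 0).valuation (D.c0 C.A C.M C.q hM) = 1 :=
  D.val0_c0 C.hπ C.M C.q hM (C.disc3 0) C.e3_zero

theorem val1_a0 : (C.O3 1).valuation (D.a0 C.A C.M C.q hM) = 1 :=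
  D.val1_a0 C.hπ C.M C.q hM (C.disc3 1) C.hq C.hqM C.ζ C.hζ C.sig2 C.sig2_cst C.sig2_alpha
    C.sig2_beta_beta C.e3_one

theorem val1_b0 : (C.O3 1).valuation (D.b0 C.A C.M C.q hM) = 1 :=
  D.val1_b0 C.hπ C.M C.q hM (C.disc3 1) C.hq C.hqM C.ζ C.hζ C.sig2 C.sig2_cst C.sig2_alpha
    C.sig2_beta_beta C.e3_one

theorem val1_c0 : (C.O3 1).valuation (D.c0 C.A C.M C.q hM) = (C.O3 1).valuation (C.q : C.F) :=
  D.val1_c0 C.hπ C.M C.q hM (C.disc3 1) C.hq C.hqM C.ζ C.hζ C.sig2 C.sig2_cst C.sig2_alpha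
    C.sig2_beta_beta C.e3_one

theorem val2_a0 : (C.O3 2).valuation (D.a0 C.A C.M C.q hM) = 1 :=
  D.val2_a0 C.hπ C.M C.q hM (C.disc3 2) C.hq C.hqM C.W2 C.W2_const C.W2_alpha_alpha
    C.W2_alpha_beta C.W2_beta_beta C.e3_two

theorem val2_b0 : (C.O3 2).valuation (D.b0 C.A C.M C.q hM) = (C.O3 2).valuation (C.q : C.F) :=
  D.val2_b0 C.hπ C.M C.q hM (C.disc3 2) C.hq C.hqM C.W2 C.W2_const C.W2_alpha_alpha
    C.W2_alpha_beta C.W2_beta_beta C.e3_two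

theorem val2_c0 : (C.O3 2).valuation (D.c0 C.A C.M C.q hM) = 1 :=
  D.val2_c0 C.hπ C.M C.q hM (C.disc3 2) C.hq C.hqM C.W2 C.W2_const C.W2_alpha_alpha
    C.W2_alpha_beta C.W2_beta_beta C.e3_two

theorem t3_gen : (C.O3 0).valuation ((C.q : C.F) / (D.a0 C.A C.M C.q hM * D.b0 C.A C.M C.q hM)
    - D.b0 C.A C.M C.q hM ^ (C.q - 1)) < 1 :=
  D.t3 C.hπ C.M C.q hM (C.disc3 0) C.e3_zero C.hq

theorem t3'_gen : (C.O3 2).valuation ((C.q : C.F) / (D.a0 C.A C.M C.q hM * D.b0 C.A C.M C.q hM)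
    - D.a0 C.A C.M C.q hM ^ (C.q - 1)) < 1 :=
  D.t3' C.hπ C.M C.q hM (C.disc3 2) C.hq C.hqM C.W2 C.W2_const C.W2_alpha_alpha
    C.W2_alpha_beta C.W2_beta_beta C.e3_two

/-- the reduction of `a₀ b₀` along the middle component (for `c2`). -/
theorem e3_one_a0_mul_b0 : ∃ X : LaurentSeries C.A,
    C.e3 1 (D.a0 C.A C.M C.q hM * D.b0 C.A C.M C.q hM) = iota C.A X ∧
      pi C.π X = D.chiS C.k C.q * D.ratS C.k 1 C.q ^ 2 :=
  D.e1_a0_mul_b0 C.M C.q hM C.hq C.hqM C.ζ C.hζ C.sig2 C.sig2_cst C.sig2_alpha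
    C.sig2_beta_beta C.e3_one

/-! membership in the chart `B₁ = intCl R t` -/

theorem isIntegral_t_of_j {y : C.F} (hy : IsIntegral (Algebra.adjoin C.K {C.j 0}) y) :
    IsIntegral (Algebra.adjoin C.K {C.t}) y :=
  isIntegral_adjoin_trans
    (isIntegral_adjoin_pow_sub (C.j 0) (Nat.one_lt_pow two_ne_zero C.hq.one_lt)) hy

variable {f : Fin 3 → ℕ} (S : GaussSys C.K ((C.q : ℕ) : C.R) C.t C.O3 (eVec C.q) f)

include S

theorem mem_B1_of {y : C.F} (h0 : (C.O3 0).valuation y ≤ 1) (h1 : (C.O3 1).valuation y ≤ 1)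
    (h2 : (C.O3 2).valuation y ≤ 1) (hy : IsIntegral (Algebra.adjoin C.K {C.j 0}) y) :
    y ∈ intCl C.R C.t := by
  refine S.mem_intCl_of_isIntegral C.irr ?_ (C.isIntegral_t_of_j hy)
  intro i
  rw [← ValuationSubring.valuation_le_one_iff]
  fin_cases i
  · exact h0
  · exact h1
  · exact h2

theorem a0_mem : D.a0 C.A C.M C.q hM ∈ intCl C.R C.t :=
  C.mem_B1_of S (by rw [C.val0_a0]; exact (C.val_q_lt 0).le) (C.val1_a0 D hM).le
    (C.val2_a0 D hM).le (D.isIntegral_a0 C.A C.M C.q hM _ C.embF0_jzero)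

theorem b0_mem : D.b0 C.A C.M C.q hM ∈ intCl C.R C.t :=
  C.mem_B1_of S (C.val0_b0 D hM).le (C.val1_b0 D hM).le
    (by rw [C.val2_b0]; exact (C.val_q_lt 2).le) (D.isIntegral_b0 C.A C.M C.q hM _ C.embF0_jzero)

theorem c0_mem : D.c0 C.A C.M C.q hM ∈ intCl C.R C.t :=
  C.mem_B1_of S (C.val0_c0 D hM).le (by rw [C.val1_c0]; exact (C.val_q_lt 1).le)
    (C.val2_c0 D hM).le (D.isIntegral_c0 C.A C.M C.q hM _ C.embF0_jzero)

theorem inv_a0 : ∃ n : ℕ, (C.q : C.F) ^ n / D.a0 C.A C.M C.q hM ∈ intCl C.R C.t := by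
  refine ⟨1, ?_⟩
  have hv : ∀ i, (C.O3 i).valuation ((C.q : C.F) ^ 1 / D.a0 C.A C.M C.q hM)
      = (C.O3 i).valuation (C.q : C.F) / (C.O3 i).valuation (D.a0 C.A C.M C.q hM) := by
    intro i; rw [pow_one, map_div₀]
  have hq0 : (C.O3 0).valuation (C.q : C.F) ≠ 0 :=
    (Valuation.ne_zero_iff _).2 (natCast_F0_ne_zero C.A C.M C.q)
  refine C.mem_B1_of S ?_ ?_ ?_ ?_
  · rw [hv, C.val0_a0, div_self hq0]
  · rw [hv, C.val1_a0, div_one]; exact (C.val_q_lt 1).le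
  · rw [hv, C.val2_a0, div_one]; exact (C.val_q_lt 2).le
  · rw [D.div_a0]; exact D.isIntegral_a00i C.A C.M C.q hM _ C.embF0_jzero

theorem inv_b0 : ∃ n : ℕ, (C.q : C.F) ^ n / D.b0 C.A C.M C.q hM ∈ intCl C.R C.t := by
  refine ⟨1, ?_⟩
  have hv : ∀ i, (C.O3 i).valuation ((C.q : C.F) ^ 1 / D.b0 C.A C.M C.q hM)
      = (C.O3 i).valuation (C.q : C.F) / (C.O3 i).valuation (D.b0 C.A C.M C.q hM) := by
    intro i; rw [pow_one, map_div₀]
  have hq2 : (C.O3 2).valuation (C.q : C.F) ≠ 0 :=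
    (Valuation.ne_zero_iff _).2 (natCast_F0_ne_zero C.A C.M C.q)
  refine C.mem_B1_of S ?_ ?_ ?_ ?_
  · rw [hv, C.val0_b0, div_one]; exact (C.val_q_lt 0).le
  · rw [hv, C.val1_b0, div_one]; exact (C.val_q_lt 1).le
  · rw [hv, C.val2_b0, div_self hq2]
  · rw [D.div_b0]; exact D.isIntegral_q_mul_b0i C.A C.M C.q hM _ C.embF0_jzero

end Gen

/-! ### the fields in final shape -/

section Fields

variable {M₀ : ℕ} [NeZero M₀] (D : Wt1 M₀) (hM : M₀ ∣ C.M)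

/-- fields `ϖ_lt 0`, `ϖ_lt 2` -/
theorem a0_lt : (C.O3 0).valuation (D.a0 C.A C.M C.q hM) < 1 := by
  rw [C.val0_a0]; exact C.val_q_lt 0

theorem b0_lt : (C.O3 2).valuation (D.b0 C.A C.M C.q hM) < 1 := by
  rw [C.val2_b0]; exact C.val_q_lt 2

theorem c0_lt : (C.O3 1).valuation (D.c0 C.A C.M C.q hM) < 1 := by
  rw [C.val1_c0]; exact C.val_q_lt 1

/-- fields `ϖ_ram 0`, `ϖ_ram 2` -/
theorem a0_ram : (C.O3 0).valuation (C.q : C.F)
    ≤ (C.O3 0).valuation (D.a0 C.A C.M C.q hM) ^ eVec C.q 0 := by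
  rw [C.val0_a0]; simp [eVec]

theorem b0_ram : (C.O3 2).valuation (C.q : C.F)
    ≤ (C.O3 2).valuation (D.b0 C.A C.M C.q hM) ^ eVec C.q 2 := by
  rw [C.val2_b0]; simp [eVec]

/-- field `ϖ_ram 1` for `q = 2` -/
theorem c0_ram (h2 : C.q = 2) : (C.O3 1).valuation (C.q : C.F)
    ≤ (C.O3 1).valuation (D.c0 C.A C.M C.q hM) ^ eVec C.q 1 := by
  rw [C.val1_c0]; simp [eVec, h2]

/-- field `c2` for `q = 2` (`ϖ 1 = c`) -/
theorem c2_of_eq (h2 : C.q = 2) : ∃ y ∈ intCl C.R C.t,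
    (C.O3 1).valuation (D.c0 C.A C.M C.q hM ^ (C.q - 1) * D.a0 C.A C.M C.q hM
      * D.b0 C.A C.M C.q hM / (C.q : C.F) * y - 1) < 1 := by
  refine ⟨1, (intCl C.R C.t).one_mem, ?_⟩
  have h1 : D.c0 C.A C.M C.q hM ^ (C.q - 1) * D.a0 C.A C.M C.q hM
      * D.b0 C.A C.M C.q hM / (C.q : C.F) * 1 - 1 = 0 := by
    have hq0 : (C.q : C.F) ≠ 0 := natCast_F0_ne_zero C.A C.M C.q
    have h3 : C.q - 1 = 1 := by rw [h2]
    rw [h3, pow_one, mul_one, sub_eq_zero, div_eq_one_iff_eq hq0, ← D.a0_mul_b0_mul_c0 C.A C.M C.q hM]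
    ring
  rw [h1, map_zero]
  exact zero_lt_one

end Fields

end Ctx

end Fermat.Agent.S36
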